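import Mathlib

set_option autoImplicit false

open UpperHalfPlane hiding I
open Complex Filter Function
open scoped Manifold MatrixGroups ModularForm Topology

namespace Fermat.Agent.S23

/-! ## Root bounds for monic polynomial equations -/

theorem Analysis.norm_le_sum_of_one_lt {k : ℕ} (x : ℂ) (c : ℕ → ℂ)
    (h : x ^ k + ∑ i ∈ Finset.range k, c i * x ^ i = 0) (hx : 1 < ‖x‖) :
    ‖x‖ ≤ ∑ i ∈ Finset.range k, ‖c i‖ := by
  rcases Nat.eq_zero_or_pos k with rfl | hk
  · simp at h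
  have hx0 : 0 < ‖x‖ := lt_trans one_pos hx
  have h1 : x ^ k = -∑ i ∈ Finset.range k, c i * x ^ i := eq_neg_of_add_eq_zero_left h
  have h2 : ‖x‖ ^ k ≤ (∑ i ∈ Finset.range k, ‖c i‖) * ‖x‖ ^ (k - 1) := by
    calc ‖x‖ ^ k = ‖x ^ k‖ := (norm_pow x k).symm
      _ = ‖∑ i ∈ Finset.range k, c i * x ^ i‖ := by rw [h1, norm_neg]
      _ ≤ ∑ i ∈ Finset.range k, ‖c i * x ^ i‖ := norm_sum_le _ _
      _ ≤ ∑ i ∈ Finset.range k, ‖c i‖ * ‖x‖ ^ (k - 1) := by
          refine Finset.sum_le_sum fun i hi => ?_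
          rw [norm_mul, norm_pow]
          refine mul_le_mul_of_nonneg_left ?_ (norm_nonneg _)
          exact pow_le_pow_right₀ hx.le (by have := Finset.mem_range.mp hi; omega)
      _ = (∑ i ∈ Finset.range k, ‖c i‖) * ‖x‖ ^ (k - 1) := by rw [Finset.sum_mul]
  have h3 : ‖x‖ ^ k = ‖x‖ * ‖x‖ ^ (k - 1) := by
    rw [← pow_succ']; congr 1; omega
  rw [h3] at h2
  exact le_of_mul_le_mul_right h2 (pow_pos hx0 _)

theorem norm_le_of_monic_root {k : ℕ} (x : ℂ) (c : ℕ → ℂ)
    (h : x ^ k + ∑ i ∈ Finset.range k, c i * x ^ i = 0) :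
    ‖x‖ ≤ 1 + ∑ i ∈ Finset.range k, ‖c i‖ := by
  have hs : 0 ≤ ∑ i ∈ Finset.range k, ‖c i‖ := Finset.sum_nonneg fun i _ => norm_nonneg _
  rcases le_or_gt ‖x‖ 1 with hx | hx
  · linarith
  · have := Analysis.norm_le_sum_of_one_lt x c h hx
    linarith

theorem norm_pow_le_of_monic_root {k : ℕ} (x : ℂ) (c : ℕ → ℂ)
    (h : x ^ k + ∑ i ∈ Finset.range k, c i * x ^ i = 0)
    (hc : ∑ i ∈ Finset.range k, ‖c i‖ ≤ 1) :
    ‖x‖ ^ k ≤ ∑ i ∈ Finset.range k, ‖c i‖ := by
  have hx : ‖x‖ ≤ 1 := by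
    by_contra hcon
    have := Analysis.norm_le_sum_of_one_lt x c h (not_le.mp hcon)
    linarith
  have h1 : x ^ k = -∑ i ∈ Finset.range k, c i * x ^ i := eq_neg_of_add_eq_zero_left h
  calc ‖x‖ ^ k = ‖x ^ k‖ := (norm_pow x k).symm
    _ = ‖∑ i ∈ Finset.range k, c i * x ^ i‖ := by rw [h1, norm_neg]
    _ ≤ ∑ i ∈ Finset.range k, ‖c i * x ^ i‖ := norm_sum_le _ _
    _ ≤ ∑ i ∈ Finset.range k, ‖c i‖ := by
        refine Finset.sum_le_sum fun i _ => ?_
        rw [norm_mul, norm_pow]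
        exact mul_le_of_le_one_right (norm_nonneg _) (pow_le_one₀ (norm_nonneg _) hx)

theorem isBoundedAtImInfty_of_monic_root {k : ℕ} {g : ℍ → ℂ} (c : ℕ → ℍ → ℂ)
    (hc : ∀ i < k, IsBoundedAtImInfty (c i))
    (h : ∀ z, g z ^ k + ∑ i ∈ Finset.range k, c i z * g z ^ i = 0) :
    IsBoundedAtImInfty g := by
  have hc' : ∀ i : ℕ, ∃ M A : ℝ, i < k → ∀ z : ℍ, A ≤ z.im → ‖c i z‖ ≤ M := by
    intro i
    by_cases hi : i < k
    · obtain ⟨M, A, hMA⟩ := isBoundedAtImInfty_iff.mp (hc i hi)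
      exact ⟨M, A, fun _ => hMA⟩
    · exact ⟨0, 0, fun h => absurd h hi⟩
  choose M A hMA using hc'
  rw [isBoundedAtImInfty_iff]
  refine ⟨1 + ∑ i ∈ Finset.range k, M i, ∑ i ∈ Finset.range k, |A i|, fun z hz => ?_⟩
  refine (norm_le_of_monic_root (g z) (fun i => c i z) (h z)).trans ?_
  refine add_le_add_right (Finset.sum_le_sum fun i hi => ?_) 1
  refine hMA i (Finset.mem_range.mp hi) z (le_trans ?_ hz)
  exact (le_abs_self _).trans
    (Finset.single_le_sum (f := fun i => |A i|) (fun j _ => abs_nonneg _) hi)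

theorem isZeroAtImInfty_of_monic_root {k : ℕ} (_hk : 0 < k) {g : ℍ → ℂ} (c : ℕ → ℍ → ℂ)
    (hc : ∀ i < k, IsZeroAtImInfty (c i))
    (h : ∀ z, g z ^ k + ∑ i ∈ Finset.range k, c i z * g z ^ i = 0) :
    IsZeroAtImInfty g := by
  have hs : Tendsto (fun z : ℍ => ∑ i ∈ Finset.range k, ‖c i z‖) atImInfty (𝓝 0) := by
    have : Tendsto (fun z : ℍ => ∑ i ∈ Finset.range k, ‖c i z‖) atImInfty
        (𝓝 (∑ i ∈ Finset.range k, (0 : ℝ))) := by
      refine tendsto_finsetSum _ fun i hi => ?_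
      have := (hc i (Finset.mem_range.mp hi)).norm
      simpa using this
    simpa using this
  show Tendsto g atImInfty (𝓝 0)
  rw [Metric.tendsto_nhds]
  intro ε hε
  have hδ : 0 < min 1 ((ε / 2) ^ k) := lt_min one_pos (pow_pos (half_pos hε) k)
  have hev := (Metric.tendsto_nhds.mp hs) _ hδ
  filter_upwards [hev] with z hz
  have hs0 : 0 ≤ ∑ i ∈ Finset.range k, ‖c i z‖ := Finset.sum_nonneg fun i _ => norm_nonneg _
  rw [Real.dist_eq, sub_zero, abs_of_nonneg hs0] at hz
  have h1 : ∑ i ∈ Finset.range k, ‖c i z‖ ≤ 1 := (hz.trans_le (min_le_left _ _)).le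
  have h2 := norm_pow_le_of_monic_root (g z) (fun i => c i z) (h z) h1
  have h3 : ‖g z‖ ^ k < (ε / 2) ^ k := h2.trans_lt (hz.trans_le (min_le_right _ _))
  have h4 : ‖g z‖ < ε / 2 := lt_of_pow_lt_pow_left₀ k (half_pos hε).le h3
  rw [dist_zero_right]
  linarith

/-! ## Holomorphic functions on `ℍ`: density of the non-vanishing locus, division -/

theorem Analysis.dense_ne_zero {d : ℍ → ℂ} (hd : MDiff d) (hd0 : d ≠ 0) :
    Dense {z : ℍ | d z ≠ 0} := by
  intro z
  by_contra hz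
  rw [mem_closure_iff_frequently] at hz
  have hev : ∀ᶠ w in 𝓝 z, d w = 0 := by
    have := not_frequently.mp hz
    filter_upwards [this] with w hw
    simpa using hw
  apply hd0
  apply UpperHalfPlane.eq_zero_of_frequently hd (τ := z)
  exact (hev.filter_mono nhdsWithin_le_nhds).frequently

theorem mdiff_eq_zero_or_eq_zero {f g : ℍ → ℂ} (hf : MDiff f) (hg : MDiff g) (h : f * g = 0) :
    f = 0 ∨ g = 0 :=
  (UpperHalfPlane.mul_eq_zero_iff hf hg).mp h

theorem mdiff_mul_right_cancel {f g d : ℍ → ℂ} (hf : MDiff f) (hg : MDiff g) (hd : MDiff d)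
    (hd0 : d ≠ 0) (h : f * d = g * d) : f = g := by
  have h1 : (f - g) * d = 0 := by rw [sub_mul, h, sub_self]
  rcases mdiff_eq_zero_or_eq_zero (hf.sub hg) hd h1 with h2 | h2
  · exact sub_eq_zero.mp h2
  · exact absurd h2 hd0

/-- Two continuous functions on `ℍ` which agree where a nonzero holomorphic function does not
vanish are equal. -/
theorem Analysis.eq_of_eqOn_ne_zero {d : ℍ → ℂ} (hd : MDiff d) (hd0 : d ≠ 0) {f g : ℍ → ℂ}
    (hf : Continuous f) (hg : Continuous g) (h : ∀ z, d z ≠ 0 → f z = g z) : f = g :=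
  Continuous.ext_on (Analysis.dense_ne_zero hd hd0) hf hg fun z hz => h z hz

theorem Analysis.continuous_of_mdiff {f : ℍ → ℂ} (hf : MDiff f) : Continuous f :=
  hf.continuous

/-- **Division lemma**: if `n`, `d` are holomorphic on `ℍ`, `d ≢ 0` and `‖n‖ ≤ B ‖d‖` with `B`
continuous, then `d` divides `n` in the ring of holomorphic functions on `ℍ`. -/
theorem exists_mdiff_mul_eq_of_norm_le {n d : ℍ → ℂ} (hn : MDiff n) (hd : MDiff d) (hd0 : d ≠ 0)
    (B : ℍ → ℝ) (hB : Continuous B) (h : ∀ z, ‖n z‖ ≤ B z * ‖d z‖) :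
    ∃ g : ℍ → ℂ, MDiff g ∧ ∀ z, g z * d z = n z := by
  classical
  set n' : ℂ → ℂ := n ∘ ofComplex with hn'
  set d' : ℂ → ℂ := d ∘ ofComplex with hd'
  have hnD : DifferentiableOn ℂ n' {z | 0 < z.im} := mdifferentiable_iff.mp hn
  have hdD : DifferentiableOn ℂ d' {z | 0 < z.im} := mdifferentiable_iff.mp hd
  have hnA : ∀ z0 : ℂ, 0 < z0.im → DifferentiableAt ℂ n' z0 := fun z0 hz0 =>
    (hnD z0 hz0).differentiableAt (isOpen_upperHalfPlaneSet.mem_nhds hz0)
  have hdA : ∀ z0 : ℂ, 0 < z0.im → DifferentiableAt ℂ d' z0 := fun z0 hz0 =>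
    (hdD z0 hz0).differentiableAt (isOpen_upperHalfPlaneSet.mem_nhds hz0)
  have e1 : ∀ w : ℍ, d' (w : ℂ) = d w := fun w => by simp [hd']
  have e2 : ∀ w : ℍ, n' (w : ℂ) = n w := fun w => by simp [hn']
  set q : ℂ → ℂ := fun z => n' z / d' z with hq
  let g' : ℂ → ℂ := fun z => if d' z = 0 then limUnder (𝓝[≠] z) q else q z
  -- zeros of `d'` are isolated
  have hiso : ∀ z0 : ℂ, 0 < z0.im → ∀ᶠ z in 𝓝[≠] z0, d' z ≠ 0 := by
    intro z0 hz0
    have hA : AnalyticOnNhd ℂ d' {z | 0 < z.im} := hdD.analyticOnNhd isOpen_upperHalfPlaneSet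
    rcases (hA z0 hz0).eventually_eq_zero_or_eventually_ne_zero with h0 | h0
    · exfalso
      apply hd0
      have hpre : IsPreconnected {z : ℂ | 0 < z.im} := (convex_halfSpace_im_gt 0).isPreconnected
      have := hA.eqOn_zero_of_preconnected_of_eventuallyEq_zero hpre hz0 h0
      funext w
      rw [← e1 w]
      exact this w.im_pos
    · exact h0
  have hg'D : ∀ z0 : ℂ, 0 < z0.im → DifferentiableAt ℂ g' z0 := by
    intro z0 hz0
    by_cases hz : d' z0 = 0
    · -- removable singularity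
      set w0 : ℍ := ⟨z0, hz0⟩ with hw0
      have hWo : IsOpen {w : ℍ | B w < B w0 + 1} := isOpen_lt hB continuous_const
      have hW : ((↑) : ℍ → ℂ) '' {w : ℍ | B w < B w0 + 1} ∈ 𝓝 z0 := by
        refine (isOpenEmbedding_coe.isOpenMap _ hWo).mem_nhds ⟨w0, ?_, rfl⟩
        show B w0 < B w0 + 1
        linarith
      have hO : {z : ℂ | z ≠ z0 → d' z ≠ 0} ∈ 𝓝 z0 := eventually_nhdsWithin_iff.mp (hiso z0 hz0)
      set s : Set ℂ := ((↑) : ℍ → ℂ) '' {w : ℍ | B w < B w0 + 1} ∩ {z : ℂ | z ≠ z0 → d' z ≠ 0}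
        with hs
      have hsn : s ∈ 𝓝 z0 := inter_mem hW hO
      have hdq : DifferentiableOn ℂ q (s \ {z0}) := by
        rintro z ⟨⟨⟨w, -, rfl⟩, hz2⟩, hz3⟩
        have hne : d' (w : ℂ) ≠ 0 := hz2 hz3
        exact ((hnA _ w.im_pos).div (hdA _ w.im_pos) hne).differentiableWithinAt
      have hbd : BddAbove (norm ∘ q '' (s \ {z0})) := by
        refine ⟨B w0 + 1, ?_⟩
        rintro _ ⟨z, ⟨⟨⟨w, hwB, rfl⟩, hz2⟩, hz3⟩, rfl⟩
        have hne : d' (w : ℂ) ≠ 0 := hz2 hz3
        have hne' : d w ≠ 0 := by rwa [e1] at hne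
        show ‖q (w : ℂ)‖ ≤ B w0 + 1
        rw [hq]
        simp only
        rw [e1, e2, norm_div, div_le_iff₀ (norm_pos_iff.mpr hne')]
        exact (h w).trans (mul_le_mul_of_nonneg_right (le_of_lt hwB) (norm_nonneg _))
      have hdiff := Complex.differentiableOn_update_limUnder_of_bddAbove hsn hdq hbd
      have hAt := hdiff.differentiableAt hsn
      refine hAt.congr_of_eventuallyEq ?_
      filter_upwards [hsn] with z hzs
      by_cases hzz : z = z0
      · subst hzz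
        simp only [g', if_pos hz, Function.update_self]
      · have hne : d' z ≠ 0 := hzs.2 hzz
        simp only [g', if_neg hne, Function.update_of_ne hzz]
    · have hev : ∀ᶠ z in 𝓝 z0, d' z ≠ 0 := (hdA z0 hz0).continuousAt.eventually_ne hz
      have hqd : DifferentiableAt ℂ q z0 := (hnA z0 hz0).div (hdA z0 hz0) hz
      refine hqd.congr_of_eventuallyEq ?_
      filter_upwards [hev] with z hzne
      simp only [g', if_neg hzne]
  refine ⟨fun z => g' z, ?_, ?_⟩
  · rw [mdifferentiable_iff]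
    intro z hz
    refine ((hg'D z hz).congr_of_eventuallyEq ?_).differentiableWithinAt
    filter_upwards [isOpen_upperHalfPlaneSet.mem_nhds hz] with w hw
    simp [ofComplex_apply_of_im_pos hw]
  · intro z
    show g' z * d z = n z
    by_cases hz : d' (z : ℂ) = 0
    · have hdz : d z = 0 := by rw [← e1 z]; exact hz
      have hnz : n z = 0 := by
        have := h z
        rw [hdz, norm_zero, mul_zero] at this
        exact norm_le_zero_iff.mp this
      rw [hdz, mul_zero, hnz]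
    · have hdz : d z ≠ 0 := by rwa [e1] at hz
      simp only [g', if_neg hz, hq]
      rw [e1, e2]
      field_simp

/-- Integrality form of the division lemma: if `n/d` satisfies (in cleared form) a monic
polynomial equation with continuous coefficients, then `d` divides `n` and the quotient satisfies
the monic equation. -/
theorem exists_mdiff_mul_eq_of_monic {k : ℕ} (hk : 0 < k) {n d : ℍ → ℂ} (hn : MDiff n)
    (hd : MDiff d) (hd0 : d ≠ 0) (c : ℕ → ℍ → ℂ) (hc : ∀ i < k, Continuous (c i))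
    (h : ∀ z, n z ^ k + ∑ i ∈ Finset.range k, c i z * d z ^ (k - i) * n z ^ i = 0) :
    ∃ g : ℍ → ℂ, MDiff g ∧ (∀ z, g z * d z = n z) ∧
      ∀ z, g z ^ k + ∑ i ∈ Finset.range k, c i z * g z ^ i = 0 := by
  -- the pointwise equation for the quotient where `d ≠ 0`
  have hquot : ∀ z, d z ≠ 0 → ∀ x : ℂ, x * d z = n z →
      x ^ k + ∑ i ∈ Finset.range k, c i z * x ^ i = 0 := by
    intro z hz x hx
    have hdk : d z ^ k ≠ 0 := pow_ne_zero k hz
    have h1 := h z
    rw [← hx] at h1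
    have h2 : (x ^ k + ∑ i ∈ Finset.range k, c i z * x ^ i) * d z ^ k = 0 := by
      rw [← h1, add_mul, mul_pow, Finset.sum_mul]
      congr 1
      refine Finset.sum_congr rfl fun i hi => ?_
      have hik : i ≤ k := (Finset.mem_range.mp hi).le
      have : d z ^ k = d z ^ (k - i) * d z ^ i := by rw [← pow_add]; congr 1; omega
      rw [this, mul_pow]
      ring
    exact (mul_eq_zero.mp h2).resolve_right hdk
  set B : ℍ → ℝ := fun z => 1 + ∑ i ∈ Finset.range k, ‖c i z‖ with hB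
  have hBc : Continuous B :=
    continuous_const.add (continuous_finsetSum _ fun i hi =>
      (hc i (Finset.mem_range.mp hi)).norm)
  have hbound : ∀ z, ‖n z‖ ≤ B z * ‖d z‖ := by
    intro z
    by_cases hz : d z = 0
    · have h1 := h z
      have h2 : ∑ i ∈ Finset.range k, c i z * d z ^ (k - i) * n z ^ i = 0 := by
        refine Finset.sum_eq_zero fun i hi => ?_
        have hik : k - i ≠ 0 := by have := Finset.mem_range.mp hi; omega
        rw [hz, zero_pow hik, mul_zero, zero_mul]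
      rw [h2, add_zero] at h1
      have h3 : n z = 0 := pow_eq_zero_iff hk.ne' |>.mp h1
      rw [h3, hz]
      simp
    · have hx := hquot z hz (n z / d z) (div_mul_cancel₀ _ hz)
      have := norm_le_of_monic_root (n z / d z) (fun i => c i z) hx
      rw [norm_div, div_le_iff₀ (norm_pos_iff.mpr hz)] at this
      exact this
  obtain ⟨g, hg, hgd⟩ := exists_mdiff_mul_eq_of_norm_le hn hd hd0 B hBc hbound
  refine ⟨g, hg, hgd, ?_⟩
  have hcont1 : Continuous fun z => g z ^ k + ∑ i ∈ Finset.range k, c i z * g z ^ i :=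
    (hg.continuous.pow k).add (continuous_finsetSum _ fun i hi =>
      (hc i (Finset.mem_range.mp hi)).mul (hg.continuous.pow i))
  have := Analysis.eq_of_eqOn_ne_zero hd hd0 hcont1 (continuous_const (y := (0 : ℂ)))
    fun z hz => hquot z hz (g z) (hgd z)
  exact fun z => congrFun this z

end Fermat.Agent.S23
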