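import Mathlib

/-!
# S23 glue: building modular / cusp forms on `Γ₀(N)` from functions

Generic constructors used by the Galois-conjugation argument:
* a holomorphic, `Γ₀(N)`-slash-invariant function all of whose `SL(2,ℤ)`-translates are bounded
  (resp. vanish) at `i∞` is (the underlying function of) a modular (resp. cusp) form on `Γ₀(N)`;
* a level-one modular form restricts to a modular form on `Γ₀(N)`.
-/

set_option autoImplicit false

open UpperHalfPlane hiding I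
open Complex Filter Function
open scoped Manifold MatrixGroups ModularForm Topology

namespace Fermat.Agent.S23.Glue

/-- A holomorphic function on `ℍ`, weight-`k` invariant under `Γ₀(N)`, all of whose
`SL(2,ℤ)`-translates are bounded at `i∞`, is a modular form on `Γ₀(N)`. -/
theorem exists_modularForm_of_mdiff (N : ℕ) [NeZero N] (k : ℤ) (g : ℍ → ℂ) (hg : MDiff g)
    (hinv : ∀ γ ∈ CongruenceSubgroup.Gamma0 N, g ∣[k] γ = g)
    (hbdd : ∀ γ : SL(2, ℤ), IsBoundedAtImInfty (g ∣[k] γ)) :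
    ∃ G : ModularForm (CongruenceSubgroup.Gamma0 N) k, (⇑G : ℍ → ℂ) = g := by
  refine ⟨{ toFun := g
            slash_action_eq' := ?_
            holo' := hg
            bdd_at_cusps' := ?_ }, rfl⟩
  · rintro γ ⟨γ', hγ', rfl⟩
    exact hinv γ' hγ'
  · intro c hc
    have hc' := (Subgroup.IsArithmetic.isCusp_iff_isCusp_SL2Z _).mp hc
    rw [OnePoint.isBoundedAt_iff_forall_SL2Z hc']
    intro γ _
    exact hbdd γ

/-- A holomorphic function on `ℍ`, weight-`k` invariant under `Γ₀(N)`, all of whose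
`SL(2,ℤ)`-translates vanish at `i∞`, is a cusp form on `Γ₀(N)`. -/
theorem exists_cuspForm_of_mdiff (N : ℕ) [NeZero N] (k : ℤ) (g : ℍ → ℂ) (hg : MDiff g)
    (hinv : ∀ γ ∈ CongruenceSubgroup.Gamma0 N, g ∣[k] γ = g)
    (hzero : ∀ γ : SL(2, ℤ), IsZeroAtImInfty (g ∣[k] γ)) :
    ∃ G : CuspForm (CongruenceSubgroup.Gamma0 N) k, (⇑G : ℍ → ℂ) = g := by
  refine ⟨{ toFun := g
            slash_action_eq' := ?_
            holo' := hg
            zero_at_cusps' := ?_ }, rfl⟩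
  · rintro γ ⟨γ', hγ', rfl⟩
    exact hinv γ' hγ'
  · intro c hc
    have hc' := (Subgroup.IsArithmetic.isCusp_iff_isCusp_SL2Z _).mp hc
    rw [OnePoint.isZeroAt_iff_forall_SL2Z hc']
    intro γ _
    exact hzero γ

/-- Restriction of a level-one modular form to `Γ₀(N)`. -/
noncomputable def restrict (N : ℕ) [NeZero N] {k : ℤ} (F : ModularForm 𝒮ℒ k) :
    ModularForm (CongruenceSubgroup.Gamma0 N) k where
  toFun := F
  slash_action_eq' := by
    rintro γ ⟨γ', -, rfl⟩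
    exact F.slash_action_eq' _ ⟨γ', rfl⟩
  holo' := F.holo'
  bdd_at_cusps' := by
    intro c hc
    have hc' := (Subgroup.IsArithmetic.isCusp_iff_isCusp_SL2Z _).mp hc
    exact F.bdd_at_cusps' ((Subgroup.IsArithmetic.isCusp_iff_isCusp_SL2Z _).mpr hc')

@[simp] theorem coe_restrict (N : ℕ) [NeZero N] {k : ℤ} (F : ModularForm 𝒮ℒ k) :
    (⇑(restrict N F) : ℍ → ℂ) = ⇑F := rfl

/-- Level-one forms are invariant under every `γ : SL(2,ℤ)`. -/
theorem levelOne_slash {k : ℤ} (F : ModularForm 𝒮ℒ k) (γ : SL(2, ℤ)) :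
    (⇑F : ℍ → ℂ) ∣[k] γ = ⇑F :=
  F.slash_action_eq' _ ⟨γ, rfl⟩

/-- Forms on `Γ₀(N)` are invariant under `γ ∈ Γ₀(N)` (as `SL(2,ℤ)`-slash). -/
theorem modularForm_slash_Gamma0 (N : ℕ) {k : ℤ} (f : ModularForm (CongruenceSubgroup.Gamma0 N) k)
    (γ : SL(2, ℤ)) (hγ : γ ∈ CongruenceSubgroup.Gamma0 N) : (⇑f : ℍ → ℂ) ∣[k] γ = ⇑f :=
  f.slash_action_eq' _ ⟨γ, hγ, rfl⟩

/-- Every `SL(2,ℤ)`-translate of a modular form on `Γ₀(N)` is bounded at `i∞`. -/
theorem modularForm_slash_isBoundedAtImInfty (N : ℕ) [NeZero N] {k : ℤ}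
    (f : ModularForm (CongruenceSubgroup.Gamma0 N) k) (γ : SL(2, ℤ)) :
    IsBoundedAtImInfty ((⇑f : ℍ → ℂ) ∣[k] γ) := by
  have hc : IsCusp (Matrix.SpecialLinearGroup.mapGL ℝ γ • (OnePoint.infty : OnePoint ℝ))
      ((CongruenceSubgroup.Gamma0 N).map (Matrix.SpecialLinearGroup.mapGL ℝ)) := by
    rw [Subgroup.IsArithmetic.isCusp_iff_isCusp_SL2Z]
    exact isCusp_SL2Z_iff'.mpr ⟨γ, rfl⟩
  exact f.bdd_at_cusps' hc γ rfl

/-- Every `SL(2,ℤ)`-translate of a cusp form on `Γ₀(N)` vanishes at `i∞`. -/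
theorem cuspForm_slash_isZeroAtImInfty (N : ℕ) [NeZero N] {k : ℤ}
    (f : CuspForm (CongruenceSubgroup.Gamma0 N) k) (γ : SL(2, ℤ)) :
    IsZeroAtImInfty ((⇑f : ℍ → ℂ) ∣[k] γ) := by
  have hc : IsCusp (Matrix.SpecialLinearGroup.mapGL ℝ γ • (OnePoint.infty : OnePoint ℝ))
      ((CongruenceSubgroup.Gamma0 N).map (Matrix.SpecialLinearGroup.mapGL ℝ)) := by
    rw [Subgroup.IsArithmetic.isCusp_iff_isCusp_SL2Z]
    exact isCusp_SL2Z_iff'.mpr ⟨γ, rfl⟩
  exact f.zero_at_cusps' hc γ rfl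

end Fermat.Agent.S23.Glue
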