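import Mathlib
import Fermat.Prelude.Thm_CongruenceSubgroup_one_mem_strictPeriods_Gamma0

set_option autoImplicit false

open UpperHalfPlane hiding I
open Complex Filter Function
open scoped Manifold MatrixGroups ModularForm Topology

namespace Fermat.Agent.S23.Sep

open ModularForm EisensteinSeries

/-- The upper triangular real matrix `[[a, b], [0, d]]` with `a d ≠ 0`. -/
noncomputable def triMat (a b d : ℝ) (h : a * d ≠ 0) : GL (Fin 2) ℝ :=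
  Matrix.GeneralLinearGroup.mkOfDetNeZero !![a, b; 0, d] (by simpa [Matrix.det_fin_two] using h)

theorem triMat_det (a b d : ℝ) (h : a * d ≠ 0) : (triMat a b d h).det.val = a * d := by
  simp [triMat, Matrix.GeneralLinearGroup.mkOfDetNeZero, Matrix.det_fin_two]

theorem triMat_coe (a b d : ℝ) (h : a * d ≠ 0) :
    (triMat a b d h : Matrix (Fin 2) (Fin 2) ℝ) = !![a, b; 0, d] := rfl

theorem triMat_smul_coe (a b d : ℝ) (ha : 0 < a) (hd : 0 < d) (z : ℍ) :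
    ((triMat a b d (mul_pos ha hd).ne' • z : ℍ) : ℂ) = (a * z + b) / d := by
  have hdet : 0 < (triMat a b d (mul_pos ha hd).ne').det.val := by
    rw [triMat_det]; exact mul_pos ha hd
  rw [UpperHalfPlane.glPos_smul_def hdet]
  simp [num, denom, triMat_coe]

theorem triMat_denom (a b d : ℝ) (h : a * d ≠ 0) (z : ℍ) :
    denom (triMat a b d h) (z : ℂ) = d := by
  simp [denom, triMat_coe]

theorem triMat_slash (k : ℤ) (f : ℍ → ℂ) (a b d : ℝ) (ha : 0 < a) (hd : 0 < d) (z : ℍ) :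
    (f ∣[k] triMat a b d (mul_pos ha hd).ne') z =
      f (triMat a b d (mul_pos ha hd).ne' • z) * ((a * d : ℝ) : ℂ) ^ (k - 1) * (d : ℂ) ^ (-k) := by
  have hdet : 0 < (triMat a b d (mul_pos ha hd).ne').det.val := by
    rw [triMat_det]; exact mul_pos ha hd
  rw [ModularForm.slash_apply, triMat_denom, triMat_det, abs_of_pos (mul_pos ha hd)]
  have hσ : UpperHalfPlane.σ (triMat a b d (mul_pos ha hd).ne') = ContinuousAlgEquiv.refl ℝ ℂ := by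
    rw [UpperHalfPlane.σ, if_pos hdet]
  rw [hσ]
  simp

theorem triMat_mul_mapGL (a b d a' b' d' : ℤ) (h : (a : ℝ) * d ≠ 0) (h' : (a' : ℝ) * d' ≠ 0)
    (γ γ' : SL(2, ℤ))
    (hm : !![a, b; 0, d] * (γ : Matrix (Fin 2) (Fin 2) ℤ) =
      (γ' : Matrix (Fin 2) (Fin 2) ℤ) * !![a', b'; 0, d']) :
    triMat a b d h * Matrix.SpecialLinearGroup.mapGL ℝ γ =
      Matrix.SpecialLinearGroup.mapGL ℝ γ' * triMat a' b' d' h' := by
  apply Matrix.GeneralLinearGroup.ext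
  intro i j
  have e := congrArg (fun M : Matrix (Fin 2) (Fin 2) ℤ => ((M i j : ℤ) : ℝ)) hm
  simp only [Matrix.mul_apply, Fin.sum_univ_two] at e
  simp only [Matrix.GeneralLinearGroup.coe_mul, Matrix.mul_apply, Fin.sum_univ_two, triMat_coe,
    Matrix.SpecialLinearGroup.mapGL_coe_matrix]
  fin_cases i <;> fin_cases j <;> simp at e ⊢ <;> exact_mod_cast e

theorem exists_gcd_data (N c : ℤ) (hN : 0 < N) :
    ∃ g n₁ c₁ u v : ℤ, 0 < g ∧ 0 < n₁ ∧ N = g * n₁ ∧ c = g * c₁ ∧ u * c₁ + v * n₁ = 1 := by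
  have hgpos' : 0 < Int.gcd N c := Int.gcd_pos_of_ne_zero_left c hN.ne'
  have hgpos : (0 : ℤ) < (Int.gcd N c : ℤ) := by exact_mod_cast hgpos'
  have h1 : (Int.gcd N c : ℤ) ∣ N := Int.gcd_dvd_left _ _
  have h2 : (Int.gcd N c : ℤ) ∣ c := Int.gcd_dvd_right _ _
  have hcop : IsCoprime (c / (Int.gcd N c : ℤ)) (N / (Int.gcd N c : ℤ)) := by
    rw [Int.isCoprime_iff_gcd_eq_one, Int.gcd_comm]
    exact Int.gcd_div_gcd_div_gcd hgpos'
  obtain ⟨u, v, huv⟩ := hcop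
  have e1 : N = (Int.gcd N c : ℤ) * (N / (Int.gcd N c : ℤ)) := (Int.mul_ediv_cancel' h1).symm
  have e2 : c = (Int.gcd N c : ℤ) * (c / (Int.gcd N c : ℤ)) := (Int.mul_ediv_cancel' h2).symm
  refine ⟨(Int.gcd N c : ℤ), N / (Int.gcd N c : ℤ), c / (Int.gcd N c : ℤ), u, v, hgpos, ?_, e1, e2,
    huv⟩
  by_contra hcon
  have : (Int.gcd N c : ℤ) * (N / (Int.gcd N c : ℤ)) ≤ 0 :=
    mul_nonpos_of_nonneg_of_nonpos hgpos.le (not_lt.mp hcon)
  omega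

theorem det_eq_one_entries (γ : SL(2, ℤ)) : γ 0 0 * γ 1 1 - γ 0 1 * γ 1 0 = 1 := by
  have := γ.det_coe
  rw [Matrix.det_fin_two] at this
  exact this

theorem exists_decomp_Gamma0 (N : ℕ) (γ : SL(2, ℤ)) (hγ : γ ∈ CongruenceSubgroup.Gamma0 N) :
    ∃ γ' : SL(2, ℤ), !![(N : ℤ), 0; 0, 1] * (γ : Matrix (Fin 2) (Fin 2) ℤ) =
      (γ' : Matrix (Fin 2) (Fin 2) ℤ) * !![(N : ℤ), 0; 0, 1] := by
  rw [CongruenceSubgroup.Gamma0_mem, ZMod.intCast_zmod_eq_zero_iff_dvd] at hγ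
  obtain ⟨c', hc'⟩ := hγ
  have hdet := det_eq_one_entries γ
  refine ⟨⟨!![γ 0 0, N * γ 0 1; c', γ 1 1], ?_⟩, ?_⟩
  · rw [Matrix.det_fin_two]
    simp only [Matrix.of_apply, Matrix.cons_val', Matrix.cons_val_zero, Matrix.cons_val_one,
      Matrix.empty_val', Matrix.cons_val_fin_one]
    rw [hc'] at hdet
    linarith
  · ext i j
    fin_cases i <;> fin_cases j <;> simp [Matrix.mul_apply, Fin.sum_univ_two, hc'] <;> ring

theorem exists_decomp (N : ℕ) [NeZero N] (γ : SL(2, ℤ)) :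
    ∃ (γ' : SL(2, ℤ)) (g n₁ B : ℤ), 0 < g ∧ 0 < n₁ ∧ (N : ℤ) = g * n₁ ∧
      (n₁ = 1 → (N : ℤ) ∣ γ 1 0) ∧
      !![(N : ℤ), 0; 0, 1] * (γ : Matrix (Fin 2) (Fin 2) ℤ) =
        (γ' : Matrix (Fin 2) (Fin 2) ℤ) * !![g, B; 0, n₁] := by
  have hNpos : (0 : ℤ) < N := by exact_mod_cast NeZero.pos N
  obtain ⟨g, n₁, c₁, u, v, hgpos, hn₁pos, hn₁, hc₁, huv⟩ := exists_gcd_data (N : ℤ) (γ 1 0) hNpos
  have hdet := det_eq_one_entries γ
  refine ⟨⟨!![n₁ * γ 0 0, g * γ 0 1 - γ 0 0 * γ 1 1 * u; c₁, γ 1 1 * v], ?_⟩, g, n₁, γ 1 1 * u,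
    hgpos, hn₁pos, hn₁, ?_, ?_⟩
  · rw [Matrix.det_fin_two]
    simp only [Matrix.of_apply, Matrix.cons_val', Matrix.cons_val_zero, Matrix.cons_val_one,
      Matrix.empty_val', Matrix.cons_val_fin_one]
    rw [hc₁] at hdet
    linear_combination (γ 0 0 * γ 1 1) * huv + hdet
  · intro h1
    rw [h1, mul_one] at hn₁
    rw [hn₁, hc₁]
    exact dvd_mul_right _ _
  · ext i j
    fin_cases i <;> fin_cases j <;> simp [Matrix.mul_apply, Fin.sum_univ_two]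
    · rw [hn₁]; ring
    · rw [hn₁]; ring
    · rw [hc₁]; ring
    · linear_combination (-(γ 1 1)) * huv

theorem dil_ne (N : ℕ) [NeZero N] : (((N : ℤ) : ℝ)) * (((1 : ℤ) : ℝ)) ≠ 0 := by
  have : (N : ℝ) ≠ 0 := by exact_mod_cast NeZero.ne N
  simpa using this

/-- `diag(N, 1)`. -/
noncomputable def dil (N : ℕ) [NeZero N] : GL (Fin 2) ℝ :=
  triMat ((N : ℤ) : ℝ) ((0 : ℤ) : ℝ) ((1 : ℤ) : ℝ) (dil_ne N)

open ConjAct Pointwise in
theorem Gamma0_le_conj (N : ℕ) [NeZero N] :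
    (CongruenceSubgroup.Gamma0 N : Subgroup (GL (Fin 2) ℝ)) ≤ toConjAct (dil N)⁻¹ • 𝒮ℒ := by
  rintro _ ⟨γ, hγ, rfl⟩
  rw [Subgroup.mem_pointwise_smul_iff_inv_smul_mem]
  obtain ⟨γ', hγ'⟩ := exists_decomp_Gamma0 N γ hγ
  have key := triMat_mul_mapGL (N : ℤ) 0 1 (N : ℤ) 0 1 (dil_ne N) (dil_ne N) γ γ' hγ'
  change dil N * _ = _ * dil N at key
  refine ⟨γ', ?_⟩
  rw [← map_inv, inv_inv, ConjAct.smul_def, ofConjAct_toConjAct]
  rw [key]
  group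

/-- `E₄ ∣[4] diag(N,1)` as a modular form of level `Γ₀(N)`. -/
noncomputable def sepAux (N : ℕ) [NeZero N] : ModularForm (CongruenceSubgroup.Gamma0 N) 4 where
  toFun := ⇑E₄ ∣[(4 : ℤ)] dil N
  slash_action_eq' γ hγ := (ModularForm.translate E₄ (dil N)).slash_action_eq' γ (Gamma0_le_conj N hγ)
  holo' := (ModularFormClass.holo E₄).slash 4 (dil N)
  bdd_at_cusps' hc := (ModularForm.translate E₄ (dil N)).bdd_at_cusps' (hc.mono (Gamma0_le_conj N))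

end Fermat.Agent.S23.Sep

namespace Fermat.Agent.S23

open ModularForm EisensteinSeries Fermat.Agent.S23.Sep

/-- The separating form `τ ↦ E₄(N τ)`. -/
noncomputable def sepForm (N : ℕ) [NeZero N] : ModularForm (CongruenceSubgroup.Gamma0 N) 4 :=
  ((N : ℂ) ^ 3)⁻¹ • sepAux N

theorem sepForm_apply (N : ℕ) [NeZero N] (z : ℍ) : sepForm N z = E₄ (dil N • z) := by
  have hN : (0 : ℝ) < ((N : ℤ) : ℝ) := by exact_mod_cast NeZero.pos N
  have h1 : (0 : ℝ) < ((1 : ℤ) : ℝ) := by norm_num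
  have hNc : (N : ℂ) ≠ 0 := by exact_mod_cast NeZero.ne N
  change ((N : ℂ) ^ 3)⁻¹ • ((⇑E₄ ∣[(4 : ℤ)] dil N) z) = _
  have := triMat_slash 4 (⇑E₄) ((N : ℤ) : ℝ) ((0 : ℤ) : ℝ) ((1 : ℤ) : ℝ) hN h1 z
  change (⇑E₄ ∣[(4 : ℤ)] dil N) z = E₄ (dil N • z) * _ * _ at this
  rw [this]
  simp only [smul_eq_mul]
  push_cast
  field_simp

end Fermat.Agent.S23

namespace Fermat.Agent.S23.Sep

open ModularForm EisensteinSeries

theorem coe_dil_smul (N : ℕ) [NeZero N] (z : ℍ) : ((dil N • z : ℍ) : ℂ) = N * z := by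
  have hN : (0 : ℝ) < ((N : ℤ) : ℝ) := by exact_mod_cast NeZero.pos N
  have h1 : (0 : ℝ) < ((1 : ℤ) : ℝ) := by norm_num
  have := triMat_smul_coe ((N : ℤ) : ℝ) ((0 : ℤ) : ℝ) ((1 : ℤ) : ℝ) hN h1 z
  change ((dil N • z : ℍ) : ℂ) = _ at this
  rw [this]
  push_cast
  simp

theorem qParam_dil (N : ℕ) [NeZero N] (z : ℍ) :
    Periodic.qParam 1 ((dil N • z : ℍ) : ℂ) = Periodic.qParam 1 (z : ℂ) ^ N := by
  rw [coe_dil_smul]
  simp only [Periodic.qParam, ofReal_one, div_one]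
  rw [← Complex.exp_nat_mul]
  congr 1
  ring

theorem one_mem_strictPeriods_Gamma0_GL (N : ℕ) [NeZero N] :
    (1 : ℝ) ∈ (CongruenceSubgroup.Gamma0 N : Subgroup (GL (Fin 2) ℝ)).strictPeriods :=
  CongruenceSubgroup.one_mem_strictPeriods_Gamma0 N

theorem hasSum_sepForm (N : ℕ) [NeZero N] (τ : ℍ) :
    HasSum (fun n : ℕ => (if N ∣ n then (qExpansion 1 E₄).coeff (n / N) else 0) •
      Periodic.qParam 1 (τ : ℂ) ^ n) (sepForm N τ) := by
  have hNpos : 0 < N := NeZero.pos N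
  have h1 := ModularForm.hasSum_qExpansion (f := E₄) (h := 1) one_pos
    _root_.one_mem_strictPeriods_SL (dil N • τ)
  rw [qParam_dil] at h1
  rw [sepForm_apply]
  have hinj : Function.Injective (fun m : ℕ => N * m) := fun a b h => by
    exact Nat.eq_of_mul_eq_mul_left hNpos h
  rw [← hinj.hasSum_iff]
  · convert h1 using 1
    ext m
    simp only [Function.comp_apply, dvd_mul_right, if_true, Nat.mul_div_cancel_left _ hNpos,
      pow_mul, smul_eq_mul]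
  · intro n hn
    have : ¬ N ∣ n := by
      rintro ⟨m, rfl⟩
      exact hn ⟨m, rfl⟩
    simp [this]

theorem qExpansion_E4_int (n : ℕ) : ∃ m : ℤ, (qExpansion 1 E₄).coeff n = (m : ℂ) := by
  rw [E_qExpansion_coeff _ ⟨2, rfl⟩]
  by_cases hn : n = 0
  · exact ⟨1, by simp [hn]⟩
  · refine ⟨240 * (ArithmeticFunction.sigma 3 n : ℤ), ?_⟩
    rw [if_neg hn]
    have hb : bernoulli 4 = -1 / 30 := by decide +kernel
    rw [hb]
    push_cast
    norm_num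

theorem tendsto_E4 : Tendsto (fun z : ℍ => E₄ z) atImInfty (𝓝 1) := by
  have han := ModularFormClass.analyticAt_cuspFunction_zero E₄ one_pos one_mem_strictPeriods_SL
  have hc : ContinuousAt (cuspFunction 1 ⇑E₄) 0 := han.continuousAt
  have h0 : cuspFunction 1 ⇑E₄ 0 = 1 := by
    have := E_qExpansion_coeff_zero (k := 4) (by norm_num) ⟨2, rfl⟩
    rw [qExpansion_coeff] at this
    simpa using this
  have ht := hc.tendsto.comp (qParam_tendsto_atImInfty (h := 1) one_pos)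
  rw [h0] at ht
  refine ht.congr (fun τ => ?_)
  exact SlashInvariantFormClass.eq_cuspFunction E₄ τ one_mem_strictPeriods_SL one_ne_zero

theorem tendsto_E4_triMat (a b d : ℝ) (h : a * d ≠ 0) :
    Tendsto (fun z : ℍ => E₄ (triMat a b d h • z)) atImInfty (𝓝 1) :=
  tendsto_E4.comp (UpperHalfPlane.tendsto_smul_atImInfty (g := triMat a b d h) (by simp [triMat_coe]))

end Fermat.Agent.S23.Sep

namespace Fermat.Agent.S23

open ModularForm EisensteinSeries Fermat.Agent.S23.Sep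

theorem qExpansion_sepForm_coeff (N : ℕ) [NeZero N] (n : ℕ) :
    (qExpansion 1 (sepForm N)).coeff n =
      if N ∣ n then (qExpansion 1 E₄).coeff (n / N) else 0 := by
  have han := ModularFormClass.analyticAt_cuspFunction_zero (sepForm N) one_pos
    (one_mem_strictPeriods_Gamma0_GL N)
  exact (qExpansion_coeff_unique (sepForm N) one_pos han (hasSum_sepForm N) n).symm

theorem qExpansion_sepForm_int (N : ℕ) [NeZero N] (n : ℕ) :
    ∃ m : ℤ, (qExpansion 1 (sepForm N)).coeff n = (m : ℂ) := by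
  rw [qExpansion_sepForm_coeff]
  split_ifs
  · exact qExpansion_E4_int _
  · exact ⟨0, by simp⟩

theorem map_qExpansion_sepForm (N : ℕ) [NeZero N] (σ : ℂ ≃+* ℂ) :
    PowerSeries.map (σ : ℂ →+* ℂ) (qExpansion 1 (sepForm N)) = qExpansion 1 (sepForm N) := by
  ext n
  rw [PowerSeries.coeff_map]
  obtain ⟨m, hm⟩ := qExpansion_sepForm_int N n
  rw [hm]
  simp

theorem tendsto_sepForm (N : ℕ) [NeZero N] : Tendsto (fun z : ℍ => sepForm N z) atImInfty (𝓝 1) := by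
  have := tendsto_E4_triMat ((N : ℤ) : ℝ) ((0 : ℤ) : ℝ) ((1 : ℤ) : ℝ) (dil_ne N)
  refine this.congr (fun z => ?_)
  rw [sepForm_apply]
  rfl

/-- The slash of the separating form by `γ ∈ SL(2, ℤ)` tends to `n₁⁻⁴` at `i∞`, where
`n₁ = N / gcd(N, c)`. -/
theorem exists_tendsto_sepForm_slash (N : ℕ) [NeZero N] (γ : SL(2, ℤ)) :
    ∃ n₁ : ℤ, 0 < n₁ ∧ (n₁ = 1 → (N : ℤ) ∣ γ 1 0) ∧
      Tendsto (fun z : ℍ => (⇑(sepForm N) ∣[(4 : ℤ)] γ) z) atImInfty (𝓝 (((n₁ : ℂ) ^ 4)⁻¹)) := by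
  obtain ⟨γ', g, n₁, B, hg, hn₁, hN, hdvd, hm⟩ := exists_decomp N γ
  refine ⟨n₁, hn₁, hdvd, ?_⟩
  have hgR : (0 : ℝ) < (g : ℝ) := by exact_mod_cast hg
  have hnR : (0 : ℝ) < (n₁ : ℝ) := by exact_mod_cast hn₁
  have hne : (g : ℝ) * (n₁ : ℝ) ≠ 0 := (mul_pos hgR hnR).ne'
  have key := triMat_mul_mapGL (N : ℤ) 0 1 g B n₁ (dil_ne N) hne γ γ' hm
  change dil N * _ = _ at key
  have hE : ⇑E₄ ∣[(4 : ℤ)] (Matrix.SpecialLinearGroup.mapGL ℝ γ') = ⇑E₄ :=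
    SlashInvariantFormClass.slash_action_eq E₄ _ ⟨γ', rfl⟩
  have e1 : ⇑(sepForm N) ∣[(4 : ℤ)] γ =
      ((N : ℂ) ^ 3)⁻¹ • (⇑E₄ ∣[(4 : ℤ)] triMat g B n₁ hne) := by
    have h0 : ⇑(sepForm N) = ((N : ℂ) ^ 3)⁻¹ • (⇑E₄ ∣[(4 : ℤ)] dil N) := rfl
    rw [h0, ModularForm.SL_smul_slash]
    congr 1
    change (⇑E₄ ∣[(4 : ℤ)] dil N) ∣[(4 : ℤ)] (Matrix.SpecialLinearGroup.mapGL ℝ γ) = _
    rw [← SlashAction.slash_mul, key, SlashAction.slash_mul, hE]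
  have hNc : (N : ℂ) ≠ 0 := by exact_mod_cast NeZero.ne N
  have hnc : (n₁ : ℂ) ≠ 0 := by exact_mod_cast hn₁.ne'
  have hNR : (N : ℝ) = (g : ℝ) * (n₁ : ℝ) := by exact_mod_cast hN
  have e2 : ∀ z : ℍ, (⇑(sepForm N) ∣[(4 : ℤ)] γ) z =
      E₄ (triMat g B n₁ hne • z) * ((n₁ : ℂ) ^ 4)⁻¹ := by
    intro z
    rw [e1]
    simp only [Pi.smul_apply, smul_eq_mul]
    have hcast : (((g : ℝ) * (n₁ : ℝ) : ℝ) : ℂ) = (N : ℂ) := by
      rw [← hNR]; norm_cast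
    rw [triMat_slash 4 (⇑E₄) (g : ℝ) (B : ℝ) (n₁ : ℝ) hgR hnR z, hcast]
    have : ((4 : ℤ) - 1) = (3 : ℤ) := by norm_num
    rw [this]
    have hcast2 : (((n₁ : ℝ)) : ℂ) = (n₁ : ℂ) := by norm_cast
    rw [hcast2]
    have h3 : (N : ℂ) ^ (3 : ℤ) = (N : ℂ) ^ 3 := by norm_cast
    have h4 : (n₁ : ℂ) ^ (-(4 : ℤ)) = ((n₁ : ℂ) ^ 4)⁻¹ := by
      rw [zpow_neg]; norm_cast
    rw [h3, h4]
    field_simp
  have ht := (tendsto_E4_triMat (g : ℝ) (B : ℝ) (n₁ : ℝ) hne).mul_const (((n₁ : ℂ) ^ 4)⁻¹)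
  rw [one_mul] at ht
  exact ht.congr (fun z => (e2 z).symm)

theorem sepForm_slash_ne (N : ℕ) [NeZero N] (γ : SL(2, ℤ))
    (hγ : γ ∉ CongruenceSubgroup.Gamma0 N) : ⇑(sepForm N) ∣[(4 : ℤ)] γ ≠ ⇑(sepForm N) := by
  intro heq
  obtain ⟨n₁, hn₁, hdvd, ht⟩ := exists_tendsto_sepForm_slash N γ
  rw [heq] at ht
  have huniq := tendsto_nhds_unique ht (tendsto_sepForm N)
  apply hγ
  rw [CongruenceSubgroup.Gamma0_mem, ZMod.intCast_zmod_eq_zero_iff_dvd]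
  apply hdvd
  have h1 : ((n₁ : ℂ) ^ 4) = 1 := by
    have := inv_eq_one.mp huniq
    exact this
  have h2 : ((n₁ ^ 4 : ℤ) : ℂ) = ((1 : ℤ) : ℂ) := by push_cast; exact h1
  have h3 : n₁ ^ 4 = 1 := by exact_mod_cast h2
  have h4 : n₁ ≤ 1 := by
    by_contra hcon
    have : (2 : ℤ) ≤ n₁ := by omega
    have : (2 : ℤ) ^ 4 ≤ n₁ ^ 4 := pow_le_pow_left₀ (by norm_num) this 4
    omega
  omega

end Fermat.Agent.S23
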