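import Mathlib
import Fermat.Prelude.Def_FLTPrelim_Modularity
import Fermat.Prelude.Thm_CongruenceSubgroup_one_mem_strictPeriods_Gamma0

set_option autoImplicit false

open UpperHalfPlane hiding I
open Complex Filter Function
open scoped Manifold MatrixGroups ModularForm Topology

namespace Fermat.Agent.S23.Conj

/-- Holomorphic, `1`-periodic functions on the upper half plane that are bounded at `i∞`. -/
structure Nice (F : ℍ → ℂ) : Prop where
  mdiff : MDiff F
  per : Periodic (F ∘ ofComplex) ((1 : ℝ) : ℂ)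
  bdd : IsBoundedAtImInfty F

namespace Nice

variable {F G : ℍ → ℂ}

theorem analytic (hF : Nice F) : AnalyticAt ℂ (cuspFunction 1 F) 0 :=
  analyticAt_cuspFunction_zero one_pos hF.per hF.mdiff hF.bdd

theorem add (hF : Nice F) (hG : Nice G) : Nice (F + G) where
  mdiff := hF.mdiff.add hG.mdiff
  per := fun w => by
    have h1 := hF.per w
    have h2 := hG.per w
    simp only [Function.comp_apply, Pi.add_apply] at h1 h2 ⊢
    rw [h1, h2]
  bdd := hF.bdd.add hG.bdd

theorem mul (hF : Nice F) (hG : Nice G) : Nice (F * G) where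
  mdiff := hF.mdiff.mul hG.mdiff
  per := fun w => by
    have h1 := hF.per w
    have h2 := hG.per w
    simp only [Function.comp_apply, Pi.mul_apply] at h1 h2 ⊢
    rw [h1, h2]
  bdd := hF.bdd.mul hG.bdd

theorem const (c : ℂ) : Nice (fun _ : ℍ => c) where
  mdiff := mdifferentiable_const
  per := fun w => rfl
  bdd := Filter.const_boundedAtFilter _ c

theorem one : Nice (1 : ℍ → ℂ) := const 1

theorem zero : Nice (0 : ℍ → ℂ) := const 0

theorem smul (c : ℂ) (hF : Nice F) : Nice (c • F) := by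
  have : c • F = (fun _ : ℍ => c) * F := by
    funext z; simp
  rw [this]
  exact (const c).mul hF

theorem pow (hF : Nice F) (n : ℕ) : Nice (F ^ n) := by
  induction n with
  | zero => rw [pow_zero]; exact one
  | succ n ih => rw [pow_succ]; exact ih.mul hF

theorem sum {ι : Type*} (s : Finset ι) {F : ι → ℍ → ℂ} (hF : ∀ i ∈ s, Nice (F i)) :
    Nice (∑ i ∈ s, F i) := by
  classical
  induction s using Finset.induction_on with
  | empty => rw [Finset.sum_empty]; exact zero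
  | insert a s ha ih =>
    rw [Finset.sum_insert ha]
    exact (hF a (Finset.mem_insert_self a s)).add
      (ih fun i hi => hF i (Finset.mem_insert_of_mem hi))

theorem qExp_add (hF : Nice F) (hG : Nice G) :
    qExpansion 1 (F + G) = qExpansion 1 F + qExpansion 1 G :=
  qExpansion_add hF.analytic hG.analytic

theorem qExp_mul (hF : Nice F) (hG : Nice G) :
    qExpansion 1 (F * G) = qExpansion 1 F * qExpansion 1 G :=
  qExpansion_mul hF.analytic hG.analytic

theorem qExp_smul (c : ℂ) (hF : Nice F) :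
    qExpansion 1 (c • F) = c • qExpansion 1 F :=
  qExpansion_smul hF.analytic c

theorem qExp_pow (hF : Nice F) (n : ℕ) :
    qExpansion 1 (F ^ n) = qExpansion 1 F ^ n := by
  induction n with
  | zero => rw [pow_zero, pow_zero]; exact qExpansion_one 1
  | succ n ih => rw [pow_succ, pow_succ, qExp_mul (hF.pow n) hF, ih]

theorem qExp_sum {ι : Type*} (s : Finset ι) {F : ι → ℍ → ℂ} (hF : ∀ i ∈ s, Nice (F i)) :
    qExpansion 1 (∑ i ∈ s, F i) = ∑ i ∈ s, qExpansion 1 (F i) := by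
  classical
  induction s using Finset.induction_on with
  | empty => rw [Finset.sum_empty, Finset.sum_empty]; exact qExpansion_zero 1
  | insert a s ha ih =>
    rw [Finset.sum_insert ha, Finset.sum_insert ha,
      qExp_add (hF a (Finset.mem_insert_self a s))
        (sum s fun i hi => hF i (Finset.mem_insert_of_mem hi)),
      ih fun i hi => hF i (Finset.mem_insert_of_mem hi)]

theorem eq_zero_of_qExp (hF : Nice F) (h : qExpansion 1 F = 0) : F = 0 :=
  (qExpansion_eq_zero_iff one_pos hF.per hF.mdiff hF.bdd).1 h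

theorem qExp_ne_zero (hF : Nice F) (h : F ≠ 0) : qExpansion 1 F ≠ 0 :=
  fun h0 => h (hF.eq_zero_of_qExp h0)

end Nice

theorem nice_of_levelOne {k : ℤ} (G : ModularForm 𝒮ℒ k) : Nice ⇑G where
  mdiff := ModularFormClass.holo G
  per := SlashInvariantFormClass.periodic_comp_ofComplex G one_mem_strictPeriods_SL
  bdd := ModularFormClass.bdd_at_infty G

theorem nice_of_modularForm {N : ℕ} [NeZero N] {k : ℤ}
    (G : ModularForm (CongruenceSubgroup.Gamma0 N) k) : Nice ⇑G where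
  mdiff := ModularFormClass.holo G
  per := SlashInvariantFormClass.periodic_comp_ofComplex G
    (CongruenceSubgroup.one_mem_strictPeriods_Gamma0 N)
  bdd := ModularFormClass.bdd_at_infty G

theorem nice_of_cuspForm {N : ℕ} [NeZero N] {k : ℤ}
    (G : CuspForm (CongruenceSubgroup.Gamma0 N) k) : Nice ⇑G where
  mdiff := CuspFormClass.holo G
  per := SlashInvariantFormClass.periodic_comp_ofComplex G
    (CongruenceSubgroup.one_mem_strictPeriods_Gamma0 N)
  bdd := (CuspFormClass.zero_at_infty G).isBoundedAtImInfty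

section pe

variable {R : Type*} [CommRing R]

/-- The alternating polynomial expression `∑_{m<d} (-1)^m x_m y^(d-1-m)`. -/
def pe (d : ℕ) (x : ℕ → R) (y : R) : R :=
  ∑ m ∈ Finset.range d, (-1) ^ m * x m * y ^ (d - 1 - m)

theorem pe_map {S : Type*} [CommRing S] (φ : R →+* S) (d : ℕ) (x : ℕ → R) (y : R) :
    φ (pe d x y) = pe d (fun m => φ (x m)) (φ y) := by
  simp [pe, map_sum, map_mul, map_pow]

theorem pe_congr (d : ℕ) {x x' : ℕ → R} (y : R) (h : ∀ m < d, x m = x' m) :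
    pe d x y = pe d x' y := by
  unfold pe
  refine Finset.sum_congr rfl fun m hm => ?_
  rw [h m (Finset.mem_range.1 hm)]

theorem monic_form (n : ℕ) (y : R) (a b : ℕ → R) :
    y * pe (n + 1) a y - pe (n + 1) b y =
      a 0 * y ^ (n + 1) + ∑ i ∈ Finset.range (n + 1),
        ((-1) ^ (n + 1 - i) * ((if i = 0 then 0 else a (n + 1 - i)) + b (n - i))) * y ^ i := by
  have e1 : y * pe (n + 1) a y =
      a 0 * y ^ (n + 1) + ∑ m ∈ Finset.range n, (-1) ^ (m + 1) * a (m + 1) * y ^ (n - m) := by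
    unfold pe
    rw [Finset.mul_sum, Finset.sum_range_succ', add_comm]
    congr 1
    · simp only [pow_zero, one_mul, Nat.add_sub_cancel, Nat.sub_zero]
      rw [pow_succ]; ring
    · refine Finset.sum_congr rfl fun m hm => ?_
      have hm' : m < n := Finset.mem_range.1 hm
      have e : n - m = (n + 1 - 1 - (m + 1)) + 1 := by omega
      rw [e, pow_succ]; ring
  have e3 : ∑ i ∈ Finset.range (n + 1), (-1) ^ (n + 1 - i) * b (n - i) * y ^ i =
      -pe (n + 1) b y := by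
    unfold pe
    rw [← Finset.sum_range_reflect, ← Finset.sum_neg_distrib]
    refine Finset.sum_congr rfl fun j hj => ?_
    have hj' : j < n + 1 := Finset.mem_range.1 hj
    have e1 : n + 1 - (n + 1 - 1 - j) = j + 1 := by omega
    have e2 : n - (n + 1 - 1 - j) = j := by omega
    rw [e1, e2, pow_succ]; ring
  have e4 : ∑ i ∈ Finset.range (n + 1),
        (-1) ^ (n + 1 - i) * (if i = 0 then 0 else a (n + 1 - i)) * y ^ i =
      ∑ m ∈ Finset.range n, (-1) ^ (m + 1) * a (m + 1) * y ^ (n - m) := by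
    rw [Finset.sum_range_succ']
    simp only [if_true, mul_zero, zero_mul, add_zero, Nat.add_eq_zero_iff, one_ne_zero,
      and_false, if_false]
    rw [← Finset.sum_range_reflect]
    refine Finset.sum_congr rfl fun j hj => ?_
    have hj' : j < n := Finset.mem_range.1 hj
    have e1 : n + 1 - (n - 1 - j + 1) = j + 1 := by omega
    have e2 : n - 1 - j + 1 = n - j := by omega
    rw [e1, e2]
  have e2 : ∑ i ∈ Finset.range (n + 1),
        ((-1) ^ (n + 1 - i) * ((if i = 0 then 0 else a (n + 1 - i)) + b (n - i))) * y ^ i =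
      ∑ i ∈ Finset.range (n + 1),
        (-1) ^ (n + 1 - i) * (if i = 0 then 0 else a (n + 1 - i)) * y ^ i +
      ∑ i ∈ Finset.range (n + 1), (-1) ^ (n + 1 - i) * b (n - i) * y ^ i := by
    rw [← Finset.sum_add_distrib]
    refine Finset.sum_congr rfl fun i _ => ?_
    ring
  rw [e2, e4, e3, e1]
  ring

end pe

theorem nice_neg_one : Nice (-1 : ℍ → ℂ) := Nice.const (-1)

theorem qExp_neg_one : qExpansion 1 (-1 : ℍ → ℂ) = -1 := by
  have h : (-1 : ℍ → ℂ) = -(1 : ℍ → ℂ) := rfl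
  rw [h, qExpansion_neg Nice.one.analytic, qExpansion_one]

theorem qExp_const (c : ℂ) : qExpansion 1 (fun _ : ℍ => c) = PowerSeries.C c := by
  have h : (fun _ : ℍ => c) = c • (1 : ℍ → ℂ) := by
    funext z; simp
  rw [h, Nice.one.qExp_smul, qExpansion_one]
  ext n
  simp [PowerSeries.coeff_C, PowerSeries.coeff_one]

theorem nice_pe (d : ℕ) {X : ℕ → ℍ → ℂ} {b : ℍ → ℂ} (hX : ∀ m < d, Nice (X m)) (hb : Nice b) :
    Nice (pe d X b) := by
  unfold pe
  refine Nice.sum _ fun m hm => ?_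
  exact ((nice_neg_one.pow m).mul (hX m (Finset.mem_range.1 hm))).mul (hb.pow _)

theorem qExp_pe (d : ℕ) {X : ℕ → ℍ → ℂ} {b : ℍ → ℂ} (hX : ∀ m < d, Nice (X m)) (hb : Nice b) :
    qExpansion 1 (pe d X b) = pe d (fun m => qExpansion 1 (X m)) (qExpansion 1 b) := by
  unfold pe
  rw [Nice.qExp_sum _ fun m hm =>
    ((nice_neg_one.pow m).mul (hX m (Finset.mem_range.1 hm))).mul (hb.pow _)]
  refine Finset.sum_congr rfl fun m hm => ?_
  have hXm := hX m (Finset.mem_range.1 hm)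
  rw [Nice.qExp_mul ((nice_neg_one.pow m).mul hXm) (hb.pow _),
    Nice.qExp_mul (nice_neg_one.pow m) hXm, Nice.qExp_pow nice_neg_one, Nice.qExp_pow hb,
    qExp_neg_one]

theorem pe_apply (d : ℕ) (X : ℕ → ℍ → ℂ) (b : ℍ → ℂ) (τ : ℍ) :
    pe d X b τ = pe d (fun m => X m τ) (b τ) :=
  pe_map (Pi.evalRingHom (fun _ : ℍ => ℂ) τ) d X b

theorem map_injective' (σ : ℂ ≃+* ℂ) :
    Function.Injective (PowerSeries.map (σ : ℂ →+* ℂ)) := by
  intro p p' h
  ext n
  have := congrArg (PowerSeries.coeff n) h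
  rw [PowerSeries.coeff_map, PowerSeries.coeff_map] at this
  exact σ.injective this

theorem levelOne_smul_apply {k : ℤ} (G : ModularForm 𝒮ℒ k) (γ : SL(2, ℤ)) (z : ℍ) :
    G (γ • z) = denom γ z ^ k * G z :=
  SlashInvariantForm.slash_action_eqn'' G (γ := (γ : GL (Fin 2) ℝ)) (by exact ⟨γ, rfl⟩) z

theorem slash_apply' (k : ℤ) (F : ℍ → ℂ) (γ : SL(2, ℤ)) (z : ℍ) :
    (F ∣[k] γ) z = F (γ • z) * denom γ z ^ (-k) :=
  ModularForm.SL_slash_apply F γ z

/-- Core of the conjugation argument, abstract over the level-one conjugation `conj`,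
the separating form `h` with `σ`-fixed `q`-expansion and the symmetric-function data. -/
theorem exists_cuspForm_conj_of_data (N : ℕ) [NeZero N] (σ : ℂ ≃+* ℂ)
    (f : CuspForm (CongruenceSubgroup.Gamma0 N) 2)
    (conj : ∀ {k : ℤ}, ModularForm 𝒮ℒ k → ModularForm 𝒮ℒ k)
    (hconj : ∀ {k : ℤ} (F : ModularForm 𝒮ℒ k),
      qExpansion 1 (conj F) = PowerSeries.map (σ : ℂ →+* ℂ) (qExpansion 1 F))
    (hconj0 : ∀ {k : ℤ} (F : ModularForm 𝒮ℒ k), IsZeroAtImInfty F → IsZeroAtImInfty (conj F))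
    (h : ModularForm (CongruenceSubgroup.Gamma0 N) 4)
    (hh : PowerSeries.map (σ : ℂ →+* ℂ) (qExpansion 1 h) = qExpansion 1 h)
    (d : ℕ) (hd : 0 < d)
    (C : ∀ m : ℕ, ModularForm 𝒮ℒ (2 + 4 * (m : ℤ)))
    (S : ∀ m : ℕ, ModularForm 𝒮ℒ (0 + 4 * (m : ℤ)))
    (Dfun : ℍ → ℂ) (hD0 : Dfun ≠ 0)
    (hC : ∀ τ, ∑ m ∈ Finset.range d, (-1 : ℂ) ^ m * C m τ * h τ ^ (d - 1 - m) = f τ * Dfun τ)
    (hS : ∀ τ, ∑ m ∈ Finset.range d, (-1 : ℂ) ^ m * S m τ * h τ ^ (d - 1 - m) = Dfun τ)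
    (A : ∀ m : ℕ, ModularForm 𝒮ℒ (0 + 2 * (m : ℤ)))
    (B : ∀ m : ℕ, ModularForm 𝒮ℒ (2 + 2 * (m : ℤ)))
    (hA0 : ∀ τ, A 0 τ = d)
    (hAB : ∀ τ, f τ * ∑ m ∈ Finset.range d, (-1 : ℂ) ^ m * A m τ * f τ ^ (d - 1 - m) -
      ∑ m ∈ Finset.range d, (-1 : ℂ) ^ m * B m τ * f τ ^ (d - 1 - m) = 0)
    (hAz : ∀ m, 1 ≤ m → IsZeroAtImInfty (A m))
    (hBz : ∀ m, IsZeroAtImInfty (B m))
    (hquot : ∀ {d : ℕ} (_ : 0 < d) {Num Den : ℍ → ℂ} {c : ℕ → ℍ → ℂ}, MDiff Num → MDiff Den →
      Den ≠ 0 → (∀ i < d, Continuous (c i)) →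
      (∀ τ, Num τ ^ d + ∑ i ∈ Finset.range d, c i τ * Den τ ^ (d - i) * Num τ ^ i = 0) →
      ∃ g : ℍ → ℂ, MDiff g ∧ (∀ τ, g τ * Den τ = Num τ) ∧
        ∀ τ, g τ ^ d + ∑ i ∈ Finset.range d, c i τ * g τ ^ i = 0)
    (hzero : ∀ {d : ℕ} (_ : 0 < d) {g : ℍ → ℂ} {c : ℕ → ℍ → ℂ},
      (∀ i < d, IsZeroAtImInfty (c i)) →
      (∀ τ, g τ ^ d + ∑ i ∈ Finset.range d, c i τ * g τ ^ i = 0) → IsZeroAtImInfty g)
    (hcancel : ∀ {g₁ g₂ Den : ℍ → ℂ}, MDiff g₁ → MDiff g₂ → MDiff Den → Den ≠ 0 →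
      (∀ τ, g₁ τ * Den τ = g₂ τ * Den τ) → g₁ = g₂) :
    ∃ g : CuspForm (CongruenceSubgroup.Gamma0 N) 2,
      ∀ n : ℕ, ModularFormClass.qCoeff g n = σ (ModularFormClass.qCoeff f n) := by
  obtain ⟨n, rfl⟩ : ∃ n, d = n + 1 := Nat.exists_eq_succ_of_ne_zero hd.ne'
  set σ' : PowerSeries ℂ →+* PowerSeries ℂ := PowerSeries.map (σ : ℂ →+* ℂ) with hσ'
  -- niceness
  have hfN : Nice ⇑f := nice_of_cuspForm f
  have hhN : Nice ⇑h := nice_of_modularForm h
  -- function-level identities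
  have hC' : pe (n + 1) (fun m => ⇑(C m)) ⇑h = ⇑f * Dfun := by
    funext τ
    rw [pe_apply, Pi.mul_apply, ← hC τ]
    rfl
  have hS' : pe (n + 1) (fun m => ⇑(S m)) ⇑h = Dfun := by
    funext τ
    rw [pe_apply, ← hS τ]
    rfl
  have hAB' : ⇑f * pe (n + 1) (fun m => ⇑(A m)) ⇑f - pe (n + 1) (fun m => ⇑(B m)) ⇑f = 0 := by
    funext τ
    rw [Pi.sub_apply, Pi.mul_apply, pe_apply, pe_apply, Pi.zero_apply, ← hAB τ]
    rfl
  have hDN : Nice Dfun := hS' ▸ nice_pe _ (fun m _ => nice_of_levelOne (S m)) hhN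
  -- q-expansion identities
  have qC : pe (n + 1) (fun m => qExpansion 1 (C m)) (qExpansion 1 h) =
      qExpansion 1 f * qExpansion 1 Dfun := by
    rw [← qExp_pe _ (fun m _ => nice_of_levelOne (C m)) hhN, hC', Nice.qExp_mul hfN hDN]
  have qS : pe (n + 1) (fun m => qExpansion 1 (S m)) (qExpansion 1 h) = qExpansion 1 Dfun := by
    rw [← qExp_pe _ (fun m _ => nice_of_levelOne (S m)) hhN, hS']
  have qAB : qExpansion 1 f * pe (n + 1) (fun m => qExpansion 1 (A m)) (qExpansion 1 f) -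
      pe (n + 1) (fun m => qExpansion 1 (B m)) (qExpansion 1 f) = 0 := by
    have hA1 : Nice (pe (n + 1) (fun m => ⇑(A m)) ⇑f) :=
      nice_pe _ (fun m _ => nice_of_levelOne (A m)) hfN
    have hB1 : Nice (pe (n + 1) (fun m => ⇑(B m)) ⇑f) :=
      nice_pe _ (fun m _ => nice_of_levelOne (B m)) hfN
    rw [← qExp_pe _ (fun m _ => nice_of_levelOne (A m)) hfN,
      ← qExp_pe _ (fun m _ => nice_of_levelOne (B m)) hfN, ← Nice.qExp_mul hfN hA1,
      ← qExpansion_sub (hfN.mul hA1).analytic hB1.analytic, hAB', qExpansion_zero]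
  -- conjugated data
  set y' : PowerSeries ℂ := σ' (qExpansion 1 f) with hy'
  set D' : PowerSeries ℂ := σ' (qExpansion 1 Dfun) with hD'
  have hconj' : ∀ {k : ℤ} (F : ModularForm 𝒮ℒ k), σ' (qExpansion 1 F) = qExpansion 1 (conj F) :=
    fun F => (hconj F).symm
  have σC : pe (n + 1) (fun m => qExpansion 1 (conj (C m))) (qExpansion 1 h) = y' * D' := by
    have := congrArg σ' qC
    rw [pe_map, map_mul, hh] at this
    simp only [hconj'] at this
    exact this
  have σS : pe (n + 1) (fun m => qExpansion 1 (conj (S m))) (qExpansion 1 h) = D' := by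
    have := congrArg σ' qS
    rw [pe_map, hh] at this
    simp only [hconj'] at this
    exact this
  have σAB : y' * pe (n + 1) (fun m => qExpansion 1 (conj (A m))) y' -
      pe (n + 1) (fun m => qExpansion 1 (conj (B m))) y' = 0 := by
    have := congrArg σ' qAB
    rw [map_sub, map_mul, pe_map, pe_map, map_zero] at this
    simp only [hconj'] at this
    exact this
  -- numerator and denominator
  set Num : ℍ → ℂ := pe (n + 1) (fun m => ⇑(conj (C m))) ⇑h with hNum
  set Den : ℍ → ℂ := pe (n + 1) (fun m => ⇑(conj (S m))) ⇑h with hDen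
  have hNumN : Nice Num := nice_pe _ (fun m _ => nice_of_levelOne (conj (C m))) hhN
  have hDenN : Nice Den := nice_pe _ (fun m _ => nice_of_levelOne (conj (S m))) hhN
  have qNum : qExpansion 1 Num = y' * D' := by
    rw [hNum, qExp_pe _ (fun m _ => nice_of_levelOne (conj (C m))) hhN, σC]
  have qDen : qExpansion 1 Den = D' := by
    rw [hDen, qExp_pe _ (fun m _ => nice_of_levelOne (conj (S m))) hhN, σS]
  have hD'0 : D' ≠ 0 := by
    intro h0
    have : qExpansion 1 Dfun = 0 := map_injective' σ (by rw [← hσ', ← hD', h0, map_zero])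
    exact hD0 (hDN.eq_zero_of_qExp this)
  have hDen0 : Den ≠ 0 := by
    intro h0
    rw [h0, qExpansion_zero] at qDen
    exact hD'0 qDen.symm
  -- the monic relation
  set a : ℕ → PowerSeries ℂ := fun m => qExpansion 1 (conj (A m)) with ha
  set b : ℕ → PowerSeries ℂ := fun m => qExpansion 1 (conj (B m)) with hb
  have ha0 : a 0 = PowerSeries.C ((n + 1 : ℕ) : ℂ) := by
    have hA0' : ⇑(A 0) = fun _ : ℍ => (((n + 1 : ℕ) : ℂ)) := funext hA0
    rw [ha]
    simp only
    rw [← hconj', hA0', qExp_const, hσ', PowerSeries.map_C]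
    simp
  have hmon := monic_form n y' a b
  rw [σAB, ha0] at hmon
  set c : ℕ → ℍ → ℂ := fun i => (((-1 : ℂ) ^ (n + 1 - i)) / ((n + 1 : ℕ) : ℂ)) •
    ((if i = 0 then (0 : ℍ → ℂ) else ⇑(conj (A (n + 1 - i)))) + ⇑(conj (B (n - i)))) with hc
  have hcN0 : ∀ i, Nice ((if i = 0 then (0 : ℍ → ℂ) else ⇑(conj (A (n + 1 - i)))) +
      ⇑(conj (B (n - i)))) := by
    intro i
    refine Nice.add ?_ (nice_of_levelOne _)
    split_ifs
    · exact Nice.zero
    · exact nice_of_levelOne _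
  have hcN : ∀ i, Nice (c i) := fun i => (hcN0 i).smul _
  have qc : ∀ i, qExpansion 1 (c i) = PowerSeries.C (((n + 1 : ℕ) : ℂ)⁻¹) *
      ((-1) ^ (n + 1 - i) * ((if i = 0 then 0 else a (n + 1 - i)) + b (n - i))) := by
    intro i
    have h1 : qExpansion 1 ((if i = 0 then (0 : ℍ → ℂ) else ⇑(conj (A (n + 1 - i)))) +
        ⇑(conj (B (n - i)))) = (if i = 0 then 0 else a (n + 1 - i)) + b (n - i) := by
      by_cases hi : i = 0
      · subst hi
        simp only [if_true]
        rw [Nice.qExp_add Nice.zero (nice_of_levelOne _), qExpansion_zero]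
      · simp only [hi, if_false]
        rw [Nice.qExp_add (nice_of_levelOne _) (nice_of_levelOne _)]
    rw [hc]
    simp only
    rw [(hcN0 i).qExp_smul, h1, PowerSeries.smul_eq_C_mul, div_eq_mul_inv, mul_comm ((-1 : ℂ) ^ _),
      map_mul, map_pow, map_neg, map_one, mul_assoc]
  have hn1 : ((n + 1 : ℕ) : ℂ) ≠ 0 := Nat.cast_ne_zero.2 (Nat.succ_ne_zero n)
  have hrel : y' ^ (n + 1) + ∑ i ∈ Finset.range (n + 1), qExpansion 1 (c i) * y' ^ i = 0 := by
    have e : y' ^ (n + 1) + ∑ i ∈ Finset.range (n + 1), qExpansion 1 (c i) * y' ^ i =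
        PowerSeries.C (((n + 1 : ℕ) : ℂ)⁻¹) * (PowerSeries.C ((n + 1 : ℕ) : ℂ) * y' ^ (n + 1) +
          ∑ i ∈ Finset.range (n + 1),
            ((-1) ^ (n + 1 - i) * ((if i = 0 then 0 else a (n + 1 - i)) + b (n - i))) * y' ^ i) := by
      rw [mul_add, ← mul_assoc, ← map_mul, inv_mul_cancel₀ hn1, map_one, one_mul, Finset.mul_sum]
      congr 1
      refine Finset.sum_congr rfl fun i _ => ?_
      rw [qc i, mul_assoc]
    rw [e, ← hmon, mul_zero]
  set E : ℍ → ℂ := Num ^ (n + 1) + ∑ i ∈ Finset.range (n + 1), c i * Den ^ (n + 1 - i) * Num ^ i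
    with hE
  have hEN : Nice E :=
    (hNumN.pow _).add (Nice.sum _ fun i _ => ((hcN i).mul (hDenN.pow _)).mul (hNumN.pow _))
  have qE : qExpansion 1 E = 0 := by
    rw [hE, Nice.qExp_add (hNumN.pow _)
      (Nice.sum _ fun i _ => ((hcN i).mul (hDenN.pow _)).mul (hNumN.pow _)),
      Nice.qExp_sum _ fun i _ => ((hcN i).mul (hDenN.pow _)).mul (hNumN.pow _),
      Nice.qExp_pow hNumN, qNum]
    have e : ∀ i ∈ Finset.range (n + 1), qExpansion 1 (c i * Den ^ (n + 1 - i) * Num ^ i) =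
        D' ^ (n + 1) * (qExpansion 1 (c i) * y' ^ i) := by
      intro i hi
      have hi' : i < n + 1 := Finset.mem_range.1 hi
      rw [Nice.qExp_mul ((hcN i).mul (hDenN.pow _)) (hNumN.pow _),
        Nice.qExp_mul (hcN i) (hDenN.pow _), Nice.qExp_pow hDenN, Nice.qExp_pow hNumN, qNum, qDen]
      have e2 : D' ^ (n + 1) = D' ^ (n + 1 - i) * D' ^ i := by
        rw [← pow_add]; congr 1; omega
      rw [e2, mul_pow]; ring
    rw [Finset.sum_congr rfl e, ← Finset.mul_sum, mul_pow, mul_comm (y' ^ (n + 1)), ← mul_add,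
      hrel, mul_zero]
  have hE0 : E = 0 := hEN.eq_zero_of_qExp qE
  have hpt : ∀ τ, Num τ ^ (n + 1) +
      ∑ i ∈ Finset.range (n + 1), c i τ * Den τ ^ (n + 1 - i) * Num τ ^ i = 0 := by
    intro τ
    have := congrFun hE0 τ
    rw [hE] at this
    simpa using this
  have hcC : ∀ i < n + 1, Continuous (c i) := fun i _ => (hcN i).mdiff.continuous
  obtain ⟨g, hgM, hgD, hgrel⟩ := hquot hd hNumN.mdiff hDenN.mdiff hDen0 hcC hpt
  -- transformation of numerator and denominator under `Γ₀(N)`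
  have hpe_smul : ∀ (k : ℤ) (X : ∀ m : ℕ, ModularForm 𝒮ℒ (k + 4 * (m : ℤ))) (γ : SL(2, ℤ)),
      γ ∈ CongruenceSubgroup.Gamma0 N → ∀ z : ℍ,
      pe (n + 1) (fun m => ⇑(X m)) ⇑h (γ • z) =
        denom γ z ^ (k + 4 * (n : ℤ)) * pe (n + 1) (fun m => ⇑(X m)) ⇑h z := by
    intro k X γ hγ z
    have hj : denom γ z ≠ 0 := denom_ne_zero _ z
    rw [pe_apply, pe_apply]
    unfold pe
    rw [Finset.mul_sum]
    refine Finset.sum_congr rfl fun m hm => ?_
    have hm' : m < n + 1 := Finset.mem_range.1 hm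
    have hmn : m ≤ n := Nat.lt_succ_iff.1 hm'
    have e1 : (X m) (γ • z) = denom γ z ^ (k + 4 * (m : ℤ)) * (X m) z := levelOne_smul_apply _ γ z
    have e2 : h (γ • z) = denom γ z ^ (4 : ℤ) * h z :=
      SlashInvariantForm.slash_action_eqn_SL'' h hγ z
    have e3 : denom γ z ^ (k + 4 * (m : ℤ)) * (denom γ z ^ (4 : ℤ)) ^ (n + 1 - 1 - m) =
        denom γ z ^ (k + 4 * (n : ℤ)) := by
      rw [← zpow_natCast (denom γ z ^ (4 : ℤ)), ← zpow_mul, ← zpow_add₀ hj]
      congr 1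
      have : ((n + 1 - 1 - m : ℕ) : ℤ) = (n : ℤ) - m := by
        rw [Nat.add_sub_cancel, Nat.cast_sub hmn]
      rw [this]; ring
    beta_reduce
    rw [e1, e2, mul_pow, ← e3]
    ring
  have hNum_smul : ∀ γ : SL(2, ℤ), γ ∈ CongruenceSubgroup.Gamma0 N → ∀ z : ℍ,
      Num (γ • z) = denom γ z ^ (2 + 4 * (n : ℤ)) * Num z :=
    fun γ hγ z => hpe_smul 2 (fun m => conj (C m)) γ hγ z
  have hDen_smul : ∀ γ : SL(2, ℤ), γ ∈ CongruenceSubgroup.Gamma0 N → ∀ z : ℍ,
      Den (γ • z) = denom γ z ^ (0 + 4 * (n : ℤ)) * Den z :=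
    fun γ hγ z => hpe_smul 0 (fun m => conj (S m)) γ hγ z
  have hginv : ∀ γ : SL(2, ℤ), γ ∈ CongruenceSubgroup.Gamma0 N → g ∣[(2 : ℤ)] γ = g := by
    intro γ hγ
    refine hcancel (hgM.slash 2 _) hgM hDenN.mdiff hDen0 fun z => ?_
    have hj : denom γ z ≠ 0 := denom_ne_zero _ z
    rw [slash_apply']
    have h1 := hgD (γ • z)
    rw [hNum_smul γ hγ z, hDen_smul γ hγ z, ← hgD z] at h1
    have e : denom γ z ^ (2 + 4 * (n : ℤ)) = denom γ z ^ (0 + 4 * (n : ℤ)) * denom γ z ^ (2 : ℤ) := by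
      rw [← zpow_add₀ hj]; congr 1; ring
    rw [e] at h1
    have h4 : denom γ z ^ (0 + 4 * (n : ℤ)) ≠ 0 := zpow_ne_zero _ hj
    have h2 : g (γ • z) * Den z = denom γ z ^ (2 : ℤ) * (g z * Den z) := by
      apply mul_left_cancel₀ h4
      linear_combination h1
    have h3 : denom γ z ^ (-2 : ℤ) * denom γ z ^ (2 : ℤ) = 1 := by
      rw [← zpow_add₀ hj]; simp
    calc g (γ • z) * denom γ z ^ (-2 : ℤ) * Den z
        = denom γ z ^ (-2 : ℤ) * (g (γ • z) * Den z) := by ring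
      _ = denom γ z ^ (-2 : ℤ) * denom γ z ^ (2 : ℤ) * (g z * Den z) := by rw [h2]; ring
      _ = g z * Den z := by rw [h3, one_mul]
  -- zero at all cusps
  have hcz : ∀ i < n + 1, IsZeroAtImInfty (c i) := by
    intro i hi
    have h1 : IsZeroAtImInfty ((if i = 0 then (0 : ℍ → ℂ) else ⇑(conj (A (n + 1 - i)))) +
        ⇑(conj (B (n - i)))) := by
      refine Filter.ZeroAtFilter.add ?_ (hconj0 _ (hBz _))
      split_ifs
      · exact Filter.zero_zeroAtFilter _
      · exact hconj0 _ (hAz _ (by omega))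
    exact Filter.ZeroAtFilter.smul _ h1
  have hc_smul : ∀ (γ : SL(2, ℤ)) (z : ℍ) (i : ℕ), i < n + 1 →
      c i (γ • z) = (denom γ z ^ (2 : ℤ)) ^ (n + 1 - i) * c i z := by
    intro γ z i hi
    have hj : denom γ z ≠ 0 := denom_ne_zero _ z
    have hin : i ≤ n := Nat.lt_succ_iff.1 hi
    have eB : (conj (B (n - i))) (γ • z) =
        (denom γ z ^ (2 : ℤ)) ^ (n + 1 - i) * (conj (B (n - i))) z := by
      rw [levelOne_smul_apply]
      congr 1
      rw [← zpow_natCast (denom γ z ^ (2 : ℤ)), ← zpow_mul]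
      congr 1
      have : ((n + 1 - i : ℕ) : ℤ) = ((n - i : ℕ) : ℤ) + 1 := by
        rw [← Nat.cast_add_one]; congr 1; omega
      rw [this]; ring
    have eA : (conj (A (n + 1 - i))) (γ • z) =
        (denom γ z ^ (2 : ℤ)) ^ (n + 1 - i) * (conj (A (n + 1 - i))) z := by
      rw [levelOne_smul_apply]
      congr 1
      rw [← zpow_natCast (denom γ z ^ (2 : ℤ)), ← zpow_mul]
      congr 1
      ring
    rw [hc]
    simp only [Pi.smul_apply, Pi.add_apply, smul_eq_mul]
    by_cases hi0 : i = 0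
    · subst hi0
      simp only [if_true, Pi.zero_apply, zero_add]
      rw [eB]; ring
    · simp only [hi0, if_false]
      rw [eA, eB]; ring
  have hgz : ∀ γ : SL(2, ℤ), IsZeroAtImInfty (g ∣[(2 : ℤ)] γ) := by
    intro γ
    refine hzero hd hcz fun τ => ?_
    have hj : denom γ τ ≠ 0 := denom_ne_zero _ τ
    set u : ℂ := denom γ τ ^ (-2 : ℤ) with hu
    set v : ℂ := denom γ τ ^ (2 : ℤ) with hv
    have huv : u * v = 1 := by
      rw [hu, hv, ← zpow_add₀ hj]; simp
    have h1 := hgrel (γ • τ)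
    rw [slash_apply']
    have e : (g (γ • τ) * u) ^ (n + 1) +
        ∑ i ∈ Finset.range (n + 1), c i τ * (g (γ • τ) * u) ^ i =
        u ^ (n + 1) * (g (γ • τ) ^ (n + 1) +
          ∑ i ∈ Finset.range (n + 1), c i (γ • τ) * g (γ • τ) ^ i) := by
      rw [mul_add, Finset.mul_sum, mul_pow]
      congr 1
      · ring
      · refine Finset.sum_congr rfl fun i hi => ?_
        have hi' : i < n + 1 := Finset.mem_range.1 hi
        rw [hc_smul γ τ i hi', mul_pow]
        have e2 : u ^ (n + 1) = u ^ i * u ^ (n + 1 - i) := by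
          rw [← pow_add]; congr 1; omega
        have e3 : u ^ (n + 1 - i) * v ^ (n + 1 - i) = 1 := by
          rw [← mul_pow, huv, one_pow]
        rw [e2]
        linear_combination (-(c i τ * g (γ • τ) ^ i * u ^ i)) * e3
    rw [e, h1, mul_zero]
  -- the cusp form
  let G : CuspForm (CongruenceSubgroup.Gamma0 N) 2 :=
    { toFun := g
      slash_action_eq' := by
        rintro γ ⟨γ', hγ', rfl⟩
        exact hginv γ' hγ'
      holo' := hgM
      zero_at_cusps' := by
        intro c hc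
        have hc' := (Subgroup.IsArithmetic.isCusp_iff_isCusp_SL2Z _).mp hc
        rw [OnePoint.isZeroAt_iff_forall_SL2Z hc']
        intro γ _
        exact hgz γ }
  have hGfun : (⇑G : ℍ → ℂ) = g := rfl
  have hgN : Nice g := hGfun ▸ nice_of_cuspForm G
  have hgDen : g * Den = Num := funext hgD
  have qg : qExpansion 1 g = y' := by
    have h1 : qExpansion 1 g * D' = y' * D' := by
      rw [← qDen, ← Nice.qExp_mul hgN hDenN, hgDen, qNum, qDen]
    exact mul_right_cancel₀ hD'0 h1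
  refine ⟨G, fun m => ?_⟩
  rw [ModularFormClass.qCoeff, ModularFormClass.qCoeff, hGfun, qg, hy', hσ', PowerSeries.coeff_map]
  rfl

end Fermat.Agent.S23.Conj
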