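import Mathlib

set_option autoImplicit false

/-!
# Conjugating level-one modular forms by a field automorphism of `ℂ`

For `σ : ℂ ≃+* ℂ` and a level-one modular form `F` of weight `k`, there is a level-one
modular form of weight `k` whose `q`-expansion is `σ` applied coefficientwise to the
`q`-expansion of `F`.
-/

namespace Fermat.Agent.S23

open UpperHalfPlane ModularForm ModularFormClass MatrixGroups EisensteinSeries

/-- A level-one modular form `F` admits a `σ`-conjugate. -/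
def HasConj (σ : ℂ ≃+* ℂ) {k : ℤ} (F : ModularForm 𝒮ℒ k) : Prop :=
  ∃ G : ModularForm 𝒮ℒ k, qExpansion 1 G = PowerSeries.map (σ : ℂ →+* ℂ) (qExpansion 1 F)

lemma map_smul_powerSeries (σ : ℂ ≃+* ℂ) (c : ℂ) (p : PowerSeries ℂ) :
    PowerSeries.map (σ : ℂ →+* ℂ) (c • p) = σ c • PowerSeries.map (σ : ℂ →+* ℂ) p := by
  ext n
  simp [PowerSeries.coeff_map]

/-- The `q`-expansion of the Eisenstein series `E k` is fixed by `σ`. -/
lemma map_qExpansion_E (σ : ℂ ≃+* ℂ) {k : ℕ} (hk : 3 ≤ k) (hk2 : Even k) :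
    PowerSeries.map (σ : ℂ →+* ℂ) (qExpansion 1 (E hk)) = qExpansion 1 (E hk) := by
  ext m
  rw [PowerSeries.coeff_map, E_qExpansion_coeff hk hk2]
  split_ifs with h
  · simp
  · have e : (-(2 * k / bernoulli k : ℂ) * (ArithmeticFunction.sigma (k - 1) m : ℂ)) =
        ((-(2 * k / bernoulli k) * (ArithmeticFunction.sigma (k - 1) m : ℚ) : ℚ) : ℂ) := by
      push_cast; ring
    rw [e]
    exact map_ratCast (σ : ℂ →+* ℂ) _

/-- The discriminant as a level-one modular form of weight `12`, built from `E₄` and `E₆`. -/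
noncomputable def deltaMF : ModularForm 𝒮ℒ 12 :=
  (1 / 1728 : ℂ) • (ModularForm.mcast (by decide) (E₄.pow 3) -
    ModularForm.mcast (by decide) (E₆.pow 2))

lemma deltaMF_apply (z : ℍ) : deltaMF z = ModularForm.discriminant z := by
  rw [discriminant_eq_E₄_cube_sub_E₆_sq]
  simp only [deltaMF, smul_apply, sub_apply, coe_mcast, coe_pow,
    Pi.pow_apply, smul_eq_mul]
  ring

lemma coe_deltaMF : (deltaMF : ℍ → ℂ) = ModularForm.discriminant := funext deltaMF_apply

lemma qExpansion_deltaMF :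
    qExpansion 1 deltaMF = (1 / 1728 : ℂ) • (qExpansion 1 E₄ ^ 3 - qExpansion 1 E₆ ^ 2) := by
  unfold deltaMF
  rw [FunLike.coe_smul, ModularForm.qExpansion_smul one_pos one_mem_strictPeriods_SL,
    FunLike.coe_sub, ModularForm.qExpansion_sub one_pos one_mem_strictPeriods_SL,
    ModularForm.qExpansion_mcast, ModularForm.qExpansion_mcast,
    ModularForm.qExpansion_pow one_pos one_mem_strictPeriods_SL,
    ModularForm.qExpansion_pow one_pos one_mem_strictPeriods_SL]

lemma map_qExpansion_deltaMF (σ : ℂ ≃+* ℂ) :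
    PowerSeries.map (σ : ℂ →+* ℂ) (qExpansion 1 deltaMF) = qExpansion 1 deltaMF := by
  rw [qExpansion_deltaMF, map_smul_powerSeries, map_sub, map_pow, map_pow,
    map_qExpansion_E σ _ ⟨2, rfl⟩, map_qExpansion_E σ _ ⟨3, rfl⟩]
  congr 1
  have e : (1 / 1728 : ℂ) = ((1 / 1728 : ℚ) : ℂ) := by push_cast; ring
  rw [e]
  exact map_ratCast (σ : ℂ →+* ℂ) _

lemma hasConj_zero (σ : ℂ ≃+* ℂ) (k : ℤ) : HasConj σ (0 : ModularForm 𝒮ℒ k) :=
  ⟨0, by simp [qExpansion_zero]⟩

/-- Every level-one modular form admits a `σ`-conjugate. -/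
theorem hasConj (σ : ℂ ≃+* ℂ) : ∀ (k : ℤ) (F : ModularForm 𝒮ℒ k), HasConj σ F := by
  intro k
  induction' hn : k.toNat using Nat.strong_induction_on with n ih generalizing k
  intro F
  rcases lt_trichotomy k 0 with hk | rfl | hk
  · have hF : F = 0 := DFunLike.coe_injective (levelOne_neg_weight_eq_zero hk F)
    rw [hF]; exact hasConj_zero σ k
  · -- weight `0`: constants
    obtain ⟨c, hc⟩ := levelOne_weight_zero_const F
    have h1 : (⇑(1 : ModularForm 𝒮ℒ 0) : ℍ → ℂ) = 1 := by funext z; simp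
    have hF : (F : ℍ → ℂ) = ⇑(c • (1 : ModularForm 𝒮ℒ 0)) := by
      rw [hc, FunLike.coe_smul, h1]; funext z; simp
    refine ⟨σ c • (1 : ModularForm 𝒮ℒ 0), ?_⟩
    rw [hF, FunLike.coe_smul, FunLike.coe_smul,
      ModularForm.qExpansion_smul one_pos one_mem_strictPeriods_SL,
      ModularForm.qExpansion_smul one_pos one_mem_strictPeriods_SL, map_smul_powerSeries]
    congr 1
    rw [h1, qExpansion_one, map_one]
  rcases Int.even_or_odd k with hke | hko
  swap
  · rw [levelOne_odd_weight_eq_zero hko F]; exact hasConj_zero σ k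
  lift k to ℕ using hk.le
  have hke' : Even k := by exact_mod_cast hke
  have hk0 : 0 < k := by exact_mod_cast hk
  rcases (show k = 2 ∨ 3 ≤ k by rcases hke' with ⟨r, hr⟩; omega) with rfl | hk3
  · -- weight `2`: zero
    have hF : F = 0 := by
      have := ModularForm.levelOne_weight_two_rank_zero
      exact rank_zero_iff_forall_zero.mp (by exact_mod_cast this) F
    rw [hF]; exact hasConj_zero σ _
  · -- even weight `k ≥ 4`
    obtain ⟨a, ha⟩ : ∃ a : ℂ, a = (qExpansion 1 F).coeff 0 := ⟨_, rfl⟩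
    obtain ⟨F1, hF1def⟩ : ∃ F1 : ModularForm 𝒮ℒ (k : ℤ), F1 = F - a • E hk3 := ⟨_, rfl⟩
    have hFcusp : (qExpansion 1 F1).coeff 0 = 0 := by
      rw [hF1def, ha]
      exact (isCuspForm_iff_coeffZero_eq_zero _).mp
        (sub_smul_isCuspForm F (E hk3) (E_qExpansion_coeff_zero hk3 hke'))
    have hF1 := qExpansion_eq_qExpansion_discriminant_mul F1 hFcusp
    obtain ⟨G', hG'⟩ := ih ((k : ℤ) - 12).toNat (by omega) ((k : ℤ) - 12) rfl
      (CuspForm.discriminantEquiv (toCuspForm F1 hFcusp))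
    refine ⟨σ a • E hk3 + ModularForm.mcast (by ring) (deltaMF.mul G'), ?_⟩
    have hFF : F = F1 + a • E hk3 := by rw [hF1def]; abel
    have hF : qExpansion 1 F = qExpansion 1 deltaMF *
        qExpansion 1 (CuspForm.discriminantEquiv (toCuspForm F1 hFcusp)) +
        a • qExpansion 1 (E hk3) := by
      rw [coe_deltaMF, ← hF1, hFF, FunLike.coe_add,
        ModularForm.qExpansion_add one_pos one_mem_strictPeriods_SL,
        FunLike.coe_smul, ModularForm.qExpansion_smul one_pos one_mem_strictPeriods_SL]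
    rw [hF, map_add, map_mul, map_smul_powerSeries, map_qExpansion_E σ hk3 hke',
      map_qExpansion_deltaMF, ← hG', FunLike.coe_add,
      ModularForm.qExpansion_add one_pos one_mem_strictPeriods_SL,
      FunLike.coe_smul, ModularForm.qExpansion_smul one_pos one_mem_strictPeriods_SL,
      ModularForm.qExpansion_mcast, ModularForm.qExpansion_mul one_pos one_mem_strictPeriods_SL]
    ring

/-- The `σ`-conjugate of a level-one modular form. -/
noncomputable def conjLevelOne (σ : ℂ ≃+* ℂ) {k : ℤ} (F : ModularForm 𝒮ℒ k) : ModularForm 𝒮ℒ k :=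
  (hasConj σ k F).choose

theorem qExpansion_conjLevelOne (σ : ℂ ≃+* ℂ) {k : ℤ} (F : ModularForm 𝒮ℒ k) :
    qExpansion 1 (conjLevelOne σ F) = PowerSeries.map (σ : ℂ →+* ℂ) (qExpansion 1 F) :=
  (hasConj σ k F).choose_spec

theorem qExpansion_conjLevelOne_coeff (σ : ℂ ≃+* ℂ) {k : ℤ} (F : ModularForm 𝒮ℒ k) (n : ℕ) :
    (qExpansion 1 (conjLevelOne σ F)).coeff n = σ ((qExpansion 1 F).coeff n) := by
  rw [qExpansion_conjLevelOne, PowerSeries.coeff_map]; rfl

/-- Conjugates of cusp forms are cusp forms. -/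
theorem isCuspForm_conjLevelOne (σ : ℂ ≃+* ℂ) {k : ℤ} (F : ModularForm 𝒮ℒ k)
    (hF : IsCuspForm F) : IsCuspForm (conjLevelOne σ F) := by
  rw [isCuspForm_iff_coeffZero_eq_zero] at hF ⊢
  rw [qExpansion_conjLevelOne_coeff, hF, map_zero]

theorem isZeroAtImInfty_conjLevelOne (σ : ℂ ≃+* ℂ) {k : ℤ} (F : ModularForm 𝒮ℒ k)
    (hF : (qExpansion 1 F).coeff 0 = 0) : IsZeroAtImInfty (conjLevelOne σ F) := by
  have h0 : (qExpansion 1 (conjLevelOne σ F)).coeff 0 = 0 := by
    rw [qExpansion_conjLevelOne_coeff, hF, map_zero]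
  exact CuspFormClass.zero_at_infty (toCuspForm (conjLevelOne σ F) h0)

end Fermat.Agent.S23
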