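import Mathlib

set_option autoImplicit false

open UpperHalfPlane SlashInvariantForm Finset
open scoped ModularForm MatrixGroups Manifold Topology

namespace Fermat.Agent.S23

section mixed

variable {𝒢 : Subgroup (GL (Fin 2) ℝ)} {k w : ℤ}

local notation "𝒬" => 𝒮ℒ ⧸ (𝒢.subgroupOf 𝒮ℒ)

/-- one term of the mixed symmetric expression -/
noncomputable def mixedTerm (f : ModularForm 𝒢 k) (h : ModularForm 𝒢 w) (q : 𝒬) (S : Finset 𝒬) :
    ℍ → ℂ :=
  quotientFunc f q * ∏ q' ∈ S, quotientFunc h q'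

lemma mixedTerm_slash (f : ModularForm 𝒢 k) (h : ModularForm 𝒢 w) (q : 𝒬) (S : Finset 𝒬)
    {γ : GL (Fin 2) ℝ} (hγ : γ ∈ 𝒮ℒ) :
    mixedTerm f h q S ∣[k + w * (#S : ℤ)] γ =
      mixedTerm f h ((⟨γ, hγ⟩ : 𝒮ℒ)⁻¹ • q)
        (S.map (MulAction.toPerm ((⟨γ, hγ⟩ : 𝒮ℒ)⁻¹)).toEmbedding) := by
  have hdet : |γ.det.val| = 1 := Subgroup.HasDetPlusMinusOne.abs_det hγ
  unfold mixedTerm
  rw [ModularForm.mul_slash, ModularForm.prod_slash]
  simp only [hdet, one_zpow, one_smul, Finset.prod_map, quotientFunc_smul _ hγ]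
  simp

variable [𝒢.IsFiniteRelIndex 𝒮ℒ]

open Classical in
/-- The mixed symmetric expression
`∑_q (f|q) · e_m(h|q' : q' ≠ q)`, as a function. -/
noncomputable def mixedFun (f : ModularForm 𝒢 k) (h : ModularForm 𝒢 w) (m : ℕ) : ℍ → ℂ :=
  letI := Fintype.ofFinite 𝒬
  ∑ q : 𝒬, ∑ S ∈ (univ.erase q).powersetCard m, mixedTerm f h q S

lemma mixedFun_slash (f : ModularForm 𝒢 k) (h : ModularForm 𝒢 w) (m : ℕ)
    {γ : GL (Fin 2) ℝ} (hγ : γ ∈ 𝒮ℒ) :
    mixedFun f h m ∣[k + w * (m : ℤ)] γ = mixedFun f h m := by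
  classical
  let := Fintype.ofFinite 𝒬
  unfold mixedFun
  rw [SlashAction.sum_slash]
  simp_rw [SlashAction.sum_slash]
  set π : Equiv.Perm 𝒬 := MulAction.toPerm ((⟨γ, hγ⟩ : 𝒮ℒ)⁻¹) with hπ
  have key : ∀ q : 𝒬, ∑ S ∈ (univ.erase q).powersetCard m, mixedTerm f h q S ∣[k + w * (m : ℤ)] γ =
      ∑ S ∈ (univ.erase (π q)).powersetCard m, mixedTerm f h (π q) S := by
    intro q
    have e1 : ∀ S ∈ (univ.erase q).powersetCard m, mixedTerm f h q S ∣[k + w * (m : ℤ)] γ =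
        mixedTerm f h (π q) (S.map π.toEmbedding) := by
      intro S hS
      have hc : #S = m := (Finset.mem_powersetCard.mp hS).2
      have := mixedTerm_slash f h q S hγ
      rw [hc] at this
      exact this
    rw [Finset.sum_congr rfl e1]
    have e2 : (univ.erase (π q)).powersetCard m =
        ((univ.erase q).powersetCard m).map (Finset.mapEmbedding π.toEmbedding).toEmbedding := by
      rw [← Finset.powersetCard_map]
      congr 1
      ext x
      simp [Finset.mem_erase]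
    rw [e2, Finset.sum_map]
    rfl
  rw [Finset.sum_congr rfl (fun q _ => key q)]
  exact Equiv.sum_comp π (fun q => ∑ S ∈ (univ.erase q).powersetCard m, mixedTerm f h q S)

end mixed

section forms

variable {𝒢 : Subgroup (GL (Fin 2) ℝ)} {k w : ℤ} [𝒢.IsArithmetic]

local notation "𝒬" => 𝒮ℒ ⧸ (𝒢.subgroupOf 𝒮ℒ)

omit [𝒢.IsArithmetic] in
lemma quotientFunc_mdiff (f : ModularForm 𝒢 k) (q : 𝒬) : MDiff (quotientFunc f q) := by
  induction q using Quotient.inductionOn with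
  | h r => exact (ModularForm.translate f r.val⁻¹).holo'

lemma quotientFunc_bdd (f : ModularForm 𝒢 k) (q : 𝒬) : IsBoundedAtImInfty (quotientFunc f q) := by
  induction q using Quotient.inductionOn with
  | h r =>
    obtain ⟨g, hg⟩ : ∃ g : SL(2, ℤ), Matrix.SpecialLinearGroup.mapGL ℝ g = r.val⁻¹ :=
      inv_mem r.2
    have := ModularFormClass.bdd_at_infty_slash f g
    have e : quotientFunc f (⟦r⟧ : 𝒬) = (⇑f ∣[k] g) := by
      rw [ModularForm.SL_slash, quotientFunc_mk, ← hg]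
      rfl
    rw [e]
    exact this

lemma quotientFunc_zero (f : CuspForm 𝒢 k) (q : 𝒬) : IsZeroAtImInfty (quotientFunc f q) := by
  induction q using Quotient.inductionOn with
  | h r =>
    obtain ⟨g, hg⟩ : ∃ g : SL(2, ℤ), Matrix.SpecialLinearGroup.mapGL ℝ g = r.val⁻¹ :=
      inv_mem r.2
    have := CuspFormClass.zero_at_infty_slash f g
    have e : quotientFunc f (⟦r⟧ : 𝒬) = (⇑f ∣[k] g) := by
      rw [ModularForm.SL_slash, quotientFunc_mk, ← hg]
      rfl
    rw [e]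
    exact this

omit [𝒢.IsArithmetic] in
lemma Mixed.bdd_sum {ι : Type*} (s : Finset ι) (F : ι → ℍ → ℂ)
    (hF : ∀ i ∈ s, IsBoundedAtImInfty (F i)) : IsBoundedAtImInfty (∑ i ∈ s, F i) :=
  Subalgebra.sum_mem (Filter.boundedFilterSubalgebra ℂ atImInfty) hF

omit [𝒢.IsArithmetic] in
lemma Mixed.bdd_prod {ι : Type*} (s : Finset ι) (F : ι → ℍ → ℂ)
    (hF : ∀ i ∈ s, IsBoundedAtImInfty (F i)) : IsBoundedAtImInfty (∏ i ∈ s, F i) := by
  show (∏ i ∈ s, F i) ∈ Filter.boundedFilterSubalgebra ℂ atImInfty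
  exact Subalgebra.prod_mem _ hF

omit [𝒢.IsArithmetic] in
lemma mixedTerm_mdiff (f : ModularForm 𝒢 k) (h : ModularForm 𝒢 w) (q : 𝒬) (S : Finset 𝒬) :
    MDiff (mixedTerm f h q S) := by
  unfold mixedTerm
  exact (quotientFunc_mdiff f q).mul (MDifferentiable.prod fun q' _ => quotientFunc_mdiff h q')

lemma mixedTerm_bdd (f : ModularForm 𝒢 k) (h : ModularForm 𝒢 w) (q : 𝒬) (S : Finset 𝒬) :
    IsBoundedAtImInfty (mixedTerm f h q S) := by
  unfold mixedTerm
  refine Filter.BoundedAtFilter.mul (quotientFunc_bdd f q) ?_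
  exact Mixed.bdd_prod _ _ fun q' _ => quotientFunc_bdd h q'

lemma mixedFun_mdiff (f : ModularForm 𝒢 k) (h : ModularForm 𝒢 w) (m : ℕ) :
    MDiff (mixedFun f h m) := by
  classical
  unfold mixedFun
  exact MDifferentiable.sum fun q _ => MDifferentiable.sum fun S _ => mixedTerm_mdiff f h q S

lemma mixedFun_bdd (f : ModularForm 𝒢 k) (h : ModularForm 𝒢 w) (m : ℕ) :
    IsBoundedAtImInfty (mixedFun f h m) := by
  classical
  unfold mixedFun
  exact Mixed.bdd_sum _ _ fun q _ => Mixed.bdd_sum _ _ fun S _ => mixedTerm_bdd f h q S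

/-- The mixed symmetric expression `∑_q (f|q) · e_m(h|q' : q' ≠ q)` as a level one
modular form. -/
noncomputable def mixed (f : ModularForm 𝒢 k) (h : ModularForm 𝒢 w) (m : ℕ) :
    ModularForm 𝒮ℒ (k + w * (m : ℤ)) where
  toFun := mixedFun f h m
  slash_action_eq' γ hγ := mixedFun_slash f h m hγ
  holo' := mixedFun_mdiff f h m
  bdd_at_cusps' hc := by
    rw [OnePoint.isBoundedAt_iff_forall_SL2Z hc]
    intro γ _
    have e : mixedFun f h m ∣[k + w * (m : ℤ)] γ = mixedFun f h m := by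
      rw [ModularForm.SL_slash]
      exact mixedFun_slash f h m ⟨γ, rfl⟩
    rw [e]
    exact mixedFun_bdd f h m

@[simp] lemma coe_mixed (f : ModularForm 𝒢 k) (h : ModularForm 𝒢 w) (m : ℕ) :
    ⇑(mixed f h m) = mixedFun f h m := rfl

end forms

section identities

/-- Vieta, evaluated. -/
lemma Mixed.prod_sub_eq_sum {σ R : Type*} [CommRing R] (T : Finset σ) (b : σ → R) (X : R) :
    ∏ i ∈ T, (X - b i) =
      ∑ j ∈ range (#T + 1), (-1) ^ j * (∑ t ∈ T.powersetCard j, ∏ i ∈ t, b i) * X ^ (#T - j) := by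
  have h := congrArg (Polynomial.eval X) (Multiset.prod_X_sub_X_eq_sum_esymm (T.val.map b))
  rw [Polynomial.eval_multiset_prod, Multiset.map_map, Multiset.map_map] at h
  simp only [Function.comp_def, Polynomial.eval_sub, Polynomial.eval_X, Polynomial.eval_C,
    Multiset.card_map, Finset.card_val, Polynomial.eval_finsetSum, Polynomial.eval_mul,
    Polynomial.eval_pow, Polynomial.eval_neg, Polynomial.eval_one, Finset.esymm_map_val] at h
  have h' : ∏ i ∈ T, (X - b i) = _ := h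
  rw [h']
  exact Finset.sum_congr rfl fun j _ => (mul_assoc _ _ _).symm

variable {𝒢 : Subgroup (GL (Fin 2) ℝ)} {k w : ℤ} [𝒢.IsArithmetic]

local notation "𝒬" => 𝒮ℒ ⧸ (𝒢.subgroupOf 𝒮ℒ)

open Classical in
lemma mixedFun_apply (f : ModularForm 𝒢 k) (h : ModularForm 𝒢 w) (m : ℕ) (τ : ℍ) :
    letI := Fintype.ofFinite 𝒬
    mixedFun f h m τ = ∑ q : 𝒬, quotientFunc f q τ *
      ∑ S ∈ (univ.erase q).powersetCard m, ∏ q' ∈ S, quotientFunc h q' τ := by
  unfold mixedFun mixedTerm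
  simp only [Finset.sum_apply, Pi.mul_apply, Finset.prod_apply, Finset.mul_sum]

open Classical in
/-- Lagrange interpolation identity: the polynomial with level one coefficients
`∑_m (-1)^m mixed f h m X^(d-1-m)` equals `∑_q (f|q) ∏_{q' ≠ q} (X - h|q')`. -/
theorem mixed_lagrange (f : ModularForm 𝒢 k) (h : ModularForm 𝒢 w) (τ : ℍ) (X : ℂ) :
    letI := Fintype.ofFinite 𝒬
    ∑ m ∈ range (Nat.card 𝒬), (-1) ^ m * mixed f h m τ * X ^ (Nat.card 𝒬 - 1 - m) =
      ∑ q : 𝒬, quotientFunc f q τ * ∏ q' ∈ univ.erase q, (X - quotientFunc h q' τ) := by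
  let := Fintype.ofFinite 𝒬
  have hcard : ∀ q : 𝒬, #(univ.erase q) = Nat.card 𝒬 - 1 := fun q => by
    rw [Finset.card_erase_of_mem (Finset.mem_univ q), Finset.card_univ, Nat.card_eq_fintype_card]
  have hpos : 0 < Nat.card 𝒬 := Nat.card_pos
  have e : ∀ q : 𝒬, ∏ q' ∈ univ.erase q, (X - quotientFunc h q' τ) =
      ∑ j ∈ range (Nat.card 𝒬), (-1) ^ j *
        (∑ t ∈ (univ.erase q).powersetCard j, ∏ i ∈ t, quotientFunc h i τ) *
          X ^ (Nat.card 𝒬 - 1 - j) := fun q => by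
    rw [Mixed.prod_sub_eq_sum, hcard q, Nat.sub_add_cancel hpos]
  simp_rw [e, coe_mixed, mixedFun_apply, Finset.mul_sum, Finset.sum_mul]
  rw [Finset.sum_comm]
  refine Finset.sum_congr rfl fun q _ => Finset.sum_congr rfl fun j _ => ?_
  simp only [Finset.mul_sum]
  refine Finset.sum_congr rfl fun t _ => ?_
  ring

omit [𝒢.IsArithmetic] in
lemma quotientFunc_one_coset (h : ModularForm 𝒢 w) : quotientFunc h (⟦1⟧ : 𝒬) = ⇑h := by
  rw [quotientFunc_mk]
  simp

open Classical in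
/-- The denominator `∏_{q ≠ 1} (h - h|q)` (product over the nontrivial cosets). -/
noncomputable def sepDenom (h : ModularForm 𝒢 w) : ℍ → ℂ :=
  letI := Fintype.ofFinite 𝒬
  fun τ => ∏ q ∈ (univ : Finset 𝒬).erase ⟦1⟧, (h τ - quotientFunc h q τ)

lemma sepDenom_apply [Fintype 𝒬] [DecidableEq 𝒬] (h : ModularForm 𝒢 w) (τ : ℍ) :
    sepDenom h τ = ∏ q ∈ (univ : Finset 𝒬).erase ⟦1⟧, (h τ - quotientFunc h q τ) := by
  unfold sepDenom
  convert rfl

open Classical in
/-- Numerator identity: evaluating the Lagrange polynomial at `X = h τ` only the trivial coset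
survives. -/
theorem mixed_eval_self (f : ModularForm 𝒢 k) (h : ModularForm 𝒢 w) (τ : ℍ) :
    ∑ m ∈ range (Nat.card 𝒬), (-1) ^ m * mixed f h m τ * (h τ) ^ (Nat.card 𝒬 - 1 - m) =
      f τ * sepDenom h τ := by
  rw [mixed_lagrange]
  refine (Finset.sum_eq_single (⟦1⟧ : 𝒬) ?_ ?_).trans ?_
  · intro (q : 𝒬) _ hq
    refine mul_eq_zero_of_right _ (Finset.prod_eq_zero (i := (⟦1⟧ : 𝒬)) ?_ ?_)
    · simp [Ne.symm hq]
    · rw [quotientFunc_one_coset, sub_self]
  · simp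
  · rw [quotientFunc_one_coset]
    rfl

omit [𝒢.IsArithmetic] in
lemma quotientFunc_one [𝒢.HasDetPlusMinusOne] (q : 𝒬) :
    quotientFunc (1 : ModularForm 𝒢 0) q = 1 := by
  induction q using Quotient.inductionOn with
  | h r =>
    obtain ⟨g, hg⟩ : ∃ g : SL(2, ℤ), Matrix.SpecialLinearGroup.mapGL ℝ g = r.val⁻¹ :=
      inv_mem r.2
    rw [quotientFunc_mk, ← hg, ModularForm.one_coe_eq_one]
    exact ModularForm.is_invariant_one' g

/-- the denominator is `mixed 1 h` evaluated at `h`. -/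
theorem mixed_one_eval_self [𝒢.HasDetPlusMinusOne] (h : ModularForm 𝒢 w) (τ : ℍ) :
    ∑ m ∈ range (Nat.card 𝒬),
        (-1) ^ m * mixed (1 : ModularForm 𝒢 0) h m τ * (h τ) ^ (Nat.card 𝒬 - 1 - m) =
      sepDenom h τ := by
  rw [mixed_eval_self, ModularForm.one_coe_eq_one, Pi.one_apply, one_mul]

attribute [local instance] Fintype.ofFinite in
open Classical in
/-- The characteristic polynomial of `f` over level one:
`d · ∏_q (X - f|q) = X · G_{1,f}(X) - G_{f,f}(X)`. -/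
theorem charpoly_identity [𝒢.HasDetPlusMinusOne] (f : ModularForm 𝒢 k) (τ : ℍ) (X : ℂ) :
    letI := Fintype.ofFinite 𝒬
    ∑ m ∈ range (Nat.card 𝒬),
          (-1) ^ m * mixed (1 : ModularForm 𝒢 0) f m τ * X ^ (Nat.card 𝒬 - m) -
        ∑ m ∈ range (Nat.card 𝒬), (-1) ^ m * mixed f f m τ * X ^ (Nat.card 𝒬 - 1 - m) =
      (Nat.card 𝒬 : ℂ) * ∏ q : 𝒬, (X - quotientFunc f q τ) := by
  have h1 : ∑ m ∈ range (Nat.card 𝒬),
      (-1) ^ m * mixed (1 : ModularForm 𝒢 0) f m τ * X ^ (Nat.card 𝒬 - m) =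
      X * ∑ m ∈ range (Nat.card 𝒬),
        (-1) ^ m * mixed (1 : ModularForm 𝒢 0) f m τ * X ^ (Nat.card 𝒬 - 1 - m) := by
    rw [Finset.mul_sum]
    refine Finset.sum_congr rfl fun m hm => ?_
    have hm' : m < Nat.card 𝒬 := Finset.mem_range.mp hm
    have e : Nat.card 𝒬 - m = (Nat.card 𝒬 - 1 - m) + 1 := by omega
    rw [e, pow_succ]
    ring
  rw [h1, mixed_lagrange, mixed_lagrange, Finset.mul_sum, ← Finset.sum_sub_distrib]
  have h2 : ∀ q : 𝒬, X * (quotientFunc (1 : ModularForm 𝒢 0) q τ *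
        ∏ q' ∈ (univ : Finset 𝒬).erase q, (X - quotientFunc f q' τ)) -
      quotientFunc f q τ * ∏ q' ∈ (univ : Finset 𝒬).erase q, (X - quotientFunc f q' τ) =
      ∏ q' : 𝒬, (X - quotientFunc f q' τ) := by
    intro q
    rw [quotientFunc_one, Pi.one_apply, one_mul, ← sub_mul]
    exact Finset.mul_prod_erase univ (fun q' => X - quotientFunc f q' τ) (Finset.mem_univ q)
  rw [Finset.sum_congr rfl fun q _ => h2 q]
  rw [Finset.sum_const, nsmul_eq_mul, Finset.card_univ, Nat.card_eq_fintype_card]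

attribute [local instance] Fintype.ofFinite in
open Classical in
/-- The monic integrality relation satisfied by `f` over level one forms. -/
theorem charpoly_eval_self [𝒢.HasDetPlusMinusOne] (f : ModularForm 𝒢 k) (τ : ℍ) :
    ∑ m ∈ range (Nat.card 𝒬),
          (-1) ^ m * mixed (1 : ModularForm 𝒢 0) f m τ * (f τ) ^ (Nat.card 𝒬 - m) -
        ∑ m ∈ range (Nat.card 𝒬), (-1) ^ m * mixed f f m τ * (f τ) ^ (Nat.card 𝒬 - 1 - m) =
      0 := by
  rw [charpoly_identity]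
  refine mul_eq_zero_of_right _ (Finset.prod_eq_zero (i := (⟦1⟧ : 𝒬)) (Finset.mem_univ _) ?_)
  rw [quotientFunc_one_coset, sub_self]

attribute [local instance] Fintype.ofFinite in
open Classical in
/-- The leading coefficient of the characteristic polynomial is the index. -/
theorem mixed_one_zero [𝒢.HasDetPlusMinusOne] (f : ModularForm 𝒢 k) (τ : ℍ) :
    mixed (1 : ModularForm 𝒢 0) f 0 τ = (Nat.card 𝒬 : ℂ) := by
  rw [coe_mixed, mixedFun_apply]
  simp only [Finset.powersetCard_zero, Finset.sum_singleton, Finset.prod_empty, mul_one,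
    quotientFunc_one, Pi.one_apply, Finset.sum_const, nsmul_eq_mul, Finset.card_univ,
    Nat.card_eq_fintype_card]

end identities

section vanishing

variable {𝒢 : Subgroup (GL (Fin 2) ℝ)} {k w : ℤ} [𝒢.IsArithmetic]

local notation "𝒬" => 𝒮ℒ ⧸ (𝒢.subgroupOf 𝒮ℒ)

omit [𝒢.IsArithmetic] in
lemma quotientFunc_isZeroAtImInfty (f : ModularForm 𝒢 k)
    (hf : ∀ γ : SL(2, ℤ), IsZeroAtImInfty (⇑f ∣[k] γ)) (q : 𝒬) :
    IsZeroAtImInfty (quotientFunc f q) := by
  induction q using Quotient.inductionOn with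
  | h r =>
    obtain ⟨g, hg⟩ : ∃ g : SL(2, ℤ), Matrix.SpecialLinearGroup.mapGL ℝ g = r.val⁻¹ :=
      inv_mem r.2
    have e : quotientFunc f (⟦r⟧ : 𝒬) = (⇑f ∣[k] g) := by
      rw [ModularForm.SL_slash, quotientFunc_mk, ← hg]
      rfl
    rw [e]
    exact hf g

lemma mixedTerm_isZeroAtImInfty_left (f : ModularForm 𝒢 k) (h : ModularForm 𝒢 w)
    (hf : ∀ γ : SL(2, ℤ), IsZeroAtImInfty (⇑f ∣[k] γ)) (q : 𝒬) (S : Finset 𝒬) :
    IsZeroAtImInfty (mixedTerm f h q S) := by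
  unfold mixedTerm
  exact Filter.ZeroAtFilter.mul_boundedAtFilter (quotientFunc_isZeroAtImInfty f hf q)
    (Mixed.bdd_prod _ _ fun q' _ => quotientFunc_bdd h q')

lemma mixedTerm_isZeroAtImInfty_right (f : ModularForm 𝒢 k) (h : ModularForm 𝒢 w)
    (hh : ∀ γ : SL(2, ℤ), IsZeroAtImInfty (⇑h ∣[w] γ)) (q : 𝒬) (S : Finset 𝒬)
    (hS : S.Nonempty) :
    IsZeroAtImInfty (mixedTerm f h q S) := by
  classical
  unfold mixedTerm
  obtain ⟨a, ha⟩ := hS
  rw [← Finset.mul_prod_erase S _ ha]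
  refine Filter.BoundedAtFilter.mul_zeroAtFilter (quotientFunc_bdd f q) ?_
  exact Filter.ZeroAtFilter.mul_boundedAtFilter (quotientFunc_isZeroAtImInfty h hh a)
    (Mixed.bdd_prod _ _ fun q' _ => quotientFunc_bdd h q')

omit [𝒢.IsArithmetic] in
lemma Mixed.zero_sum {ι : Type*} (s : Finset ι) (F : ι → ℍ → ℂ)
    (hF : ∀ i ∈ s, IsZeroAtImInfty (F i)) : IsZeroAtImInfty (∑ i ∈ s, F i) :=
  Submodule.sum_mem (Filter.zeroAtFilterSubmodule ℂ atImInfty) hF

/-- If all translates of `f` vanish at `i∞` (e.g. `f` a cusp form), so does `mixed f h m`. -/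
theorem mixed_isZeroAtImInfty_left (f : ModularForm 𝒢 k) (h : ModularForm 𝒢 w) (m : ℕ)
    (hf : ∀ γ : SL(2, ℤ), IsZeroAtImInfty (⇑f ∣[k] γ)) :
    IsZeroAtImInfty (mixed f h m) := by
  classical
  rw [coe_mixed]
  unfold mixedFun
  exact Mixed.zero_sum _ _ fun q _ => Mixed.zero_sum _ _ fun S _ =>
    mixedTerm_isZeroAtImInfty_left f h hf q S

/-- If all translates of `h` vanish at `i∞` (e.g. `h` a cusp form) and `1 ≤ m`, then
`mixed f h m` vanishes at `i∞`. -/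
theorem mixed_isZeroAtImInfty_right (f : ModularForm 𝒢 k) (h : ModularForm 𝒢 w) {m : ℕ}
    (hm : 1 ≤ m) (hh : ∀ γ : SL(2, ℤ), IsZeroAtImInfty (⇑h ∣[w] γ)) :
    IsZeroAtImInfty (mixed f h m) := by
  classical
  rw [coe_mixed]
  unfold mixedFun
  refine Mixed.zero_sum _ _ fun q _ => Mixed.zero_sum _ _ fun S hS => ?_
  refine mixedTerm_isZeroAtImInfty_right f h hh q S ?_
  rw [← Finset.card_pos, (Finset.mem_powersetCard.mp hS).2]
  exact hm

end vanishing

section nonvanishing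

variable {𝒢 : Subgroup (GL (Fin 2) ℝ)} {k w : ℤ} [𝒢.IsArithmetic]

local notation "𝒬" => 𝒮ℒ ⧸ (𝒢.subgroupOf 𝒮ℒ)

attribute [local instance] Fintype.ofFinite in
lemma sepDenom_mdiff (h : ModularForm 𝒢 w) : MDiff (sepDenom h) := by
  classical
  have e : sepDenom h = ∏ q ∈ (univ : Finset 𝒬).erase ⟦1⟧, (⇑h - quotientFunc h q) := by
    funext τ
    rw [sepDenom_apply, Finset.prod_apply]
    rfl
  rw [e]
  exact MDifferentiable.prod fun q _ => (ModularFormClass.holo h).sub (quotientFunc_mdiff h q)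

attribute [local instance] Fintype.ofFinite in
/-- If no element of `𝒮ℒ` outside `𝒢` fixes `h`, the denominator is not identically zero. -/
theorem sepDenom_ne_zero (h : ModularForm 𝒢 w)
    (hsep : ∀ γ ∈ 𝒮ℒ, γ ∉ 𝒢 → (⇑h ∣[w] γ) ≠ ⇑h) : sepDenom h ≠ 0 := by
  classical
  have e : sepDenom h = ∏ q ∈ (univ : Finset 𝒬).erase ⟦1⟧, (⇑h - quotientFunc h q) := by
    funext τ
    rw [sepDenom_apply, Finset.prod_apply]
    rfl
  have hmd : ∀ q ∈ (univ : Finset 𝒬).erase (⟦1⟧ : 𝒬), MDiff (⇑h - quotientFunc h q) :=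
    fun q _ => (ModularFormClass.holo h).sub (quotientFunc_mdiff h q)
  rw [e, Ne, UpperHalfPlane.prod_eq_zero_iff hmd]
  rintro ⟨q, hq, hq0⟩
  induction q using Quotient.inductionOn with
  | h r =>
    have hne : (⟦r⟧ : 𝒬) ≠ ⟦1⟧ := (Finset.mem_erase.mp hq).1
    have hr : r.val⁻¹ ∉ 𝒢 := by
      intro hmem
      apply hne
      rw [Quotient.eq, QuotientGroup.leftRel_apply]
      simpa [Subgroup.mem_subgroupOf] using hmem
    refine hsep r.val⁻¹ (inv_mem r.2) hr ?_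
    rw [quotientFunc_mk] at hq0
    exact (sub_eq_zero.mp hq0).symm

/-- Version of `sepDenom_ne_zero` for subgroups of `SL(2, ℤ)`. -/
theorem sepDenom_ne_zero_SL {Γ : Subgroup SL(2, ℤ)} {w : ℤ}
    [(Γ : Subgroup (GL (Fin 2) ℝ)).IsArithmetic] (h : ModularForm Γ w)
    (hsep : ∀ γ : SL(2, ℤ), γ ∉ Γ → (⇑h ∣[w] γ) ≠ ⇑h) : sepDenom h ≠ 0 := by
  refine sepDenom_ne_zero h ?_
  rintro _ ⟨g, rfl⟩ hg
  exact hsep g fun hmem => hg (Subgroup.mem_map_of_mem _ hmem)

end nonvanishing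

end Fermat.Agent.S23
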