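import Mathlib
import Fermat.Agent.S23.ConjCore
import Fermat.Agent.S23.Mixed
import Fermat.Agent.S23.LevelOneConj
import Fermat.Agent.S23.SepForm
import Fermat.Agent.S23.Analysis

set_option autoImplicit false

open UpperHalfPlane hiding I
open Complex Filter Function
open scoped Manifold MatrixGroups ModularForm Topology

namespace Fermat.Agent.S23

/-- **Goal A** (`Aut(ℂ)`-stability of `S₂(Γ₀(N))`): for every field automorphism `σ` of `ℂ` and
every weight two cusp form `f` on `Γ₀(N)` there is a cusp form whose `q`-expansion is the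
`σ`-conjugate of that of `f`. -/
theorem exists_cuspForm_conj (N : ℕ) [NeZero N] (σ : ℂ ≃+* ℂ)
    (f : CuspForm (CongruenceSubgroup.Gamma0 N) 2) :
    ∃ g : CuspForm (CongruenceSubgroup.Gamma0 N) 2,
      ∀ n : ℕ, ModularFormClass.qCoeff g n = σ (ModularFormClass.qCoeff f n) := by
  set f' : ModularForm (CongruenceSubgroup.Gamma0 N) 2 := ModularFormClass.modularForm f with hf'
  have hff : ∀ τ, f' τ = f τ := fun τ => rfl
  have hfz : ∀ γ : SL(2, ℤ), IsZeroAtImInfty (⇑f' ∣[(2 : ℤ)] γ) :=
    fun γ => CuspFormClass.zero_at_infty_slash f γ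
  refine Conj.exists_cuspForm_conj_of_data N σ f (fun F => conjLevelOne σ F)
    (fun F => qExpansion_conjLevelOne σ F) ?_ (sepForm N) (map_qExpansion_sepForm N σ)
    (Nat.card (𝒮ℒ ⧸ ((CongruenceSubgroup.Gamma0 N : Subgroup (GL (Fin 2) ℝ)).subgroupOf 𝒮ℒ)))
    Nat.card_pos
    (fun m => mixed f' (sepForm N) m) (fun m => mixed (1 : ModularForm _ 0) (sepForm N) m)
    (sepDenom (sepForm N)) (sepDenom_ne_zero_SL (sepForm N) (sepForm_slash_ne N))
    (fun τ => mixed_eval_self f' (sepForm N) τ) (fun τ => mixed_one_eval_self (sepForm N) τ)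
    (fun m => mixed (1 : ModularForm _ 0) f' m) (fun m => mixed f' f' m)
    (fun τ => mixed_one_zero f' τ) ?_ ?_ ?_ ?_ ?_ ?_
  · -- conjugation preserves vanishing at infinity
    intro k F hF
    refine isZeroAtImInfty_conjLevelOne σ F ?_
    have hN := Conj.nice_of_levelOne F
    rw [qExpansion_coeff_zero one_pos hN.analytic hN.per]
    exact hF.valueAtInfty_eq_zero
  · -- the monic relation
    intro τ
    have h1 := charpoly_eval_self f' τ
    rw [← h1, Finset.mul_sum]
    congr 1
    refine Finset.sum_congr rfl fun m hm => ?_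
    have hm' := Finset.mem_range.1 hm
    have e : Nat.card (𝒮ℒ ⧸ ((CongruenceSubgroup.Gamma0 N : Subgroup (GL (Fin 2) ℝ)).subgroupOf 𝒮ℒ))
        - m = (Nat.card (𝒮ℒ ⧸ ((CongruenceSubgroup.Gamma0 N :
          Subgroup (GL (Fin 2) ℝ)).subgroupOf 𝒮ℒ)) - 1 - m) + 1 := by omega
    rw [e, pow_succ, hff]
    ring
  · intro m hm
    exact mixed_isZeroAtImInfty_right (1 : ModularForm _ 0) f' hm hfz
  · intro m
    exact mixed_isZeroAtImInfty_left f' f' m hfz
  · intro d hd Num Den c hN hD hD0 hc h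
    exact exists_mdiff_mul_eq_of_monic hd hN hD hD0 c hc h
  · intro d hd g c hc h
    exact isZeroAtImInfty_of_monic_root hd c hc h
  · intro g₁ g₂ Den h1 h2 hD hD0 h
    exact mdiff_mul_right_cancel h1 h2 hD hD0 (funext h)

end Fermat.Agent.S23
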