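import Mathlib
import Fermat.Prelude.Def_CuspForm_HeckeAlgebra
import Fermat.Prelude.Def_CuspForm_IntegralStructure
import Fermat.Prelude.Thm_ModularFormClass_qCoeff_heckeT
import Fermat.Prelude.Thm_ModularFormClass_qCoeff_heckeU
import Fermat.Prelude.Thm_CongruenceSubgroup_one_mem_strictPeriods_Gamma0
import Fermat.Agent.S22

set_option autoImplicit false

namespace Fermat.Agent.S23

open ModularFormClass CongruenceSubgroup UpperHalfPlane

namespace Denoms

variable {N : ℕ} {k : ℤ}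

theorem hΓ (N : ℕ) :
    (1 : ℝ) ∈ (Subgroup.map (Matrix.SpecialLinearGroup.mapGL ℝ) (Gamma0 N)).strictPeriods :=
  CongruenceSubgroup.one_mem_strictPeriods_Gamma0 N

theorem qc_add (f g : CuspForm (Gamma0 N) k) (n : ℕ) :
    qCoeff ⇑(f + g) n = qCoeff ⇑f n + qCoeff ⇑g n := by
  simp only [qCoeff, FunLike.coe_add]
  rw [ModularForm.qExpansion_add one_pos (hΓ N) f g, map_add]

theorem qc_smul (c : ℂ) (f : CuspForm (Gamma0 N) k) (n : ℕ) :
    qCoeff ⇑(c • f) n = c * qCoeff ⇑f n := by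
  have h1 : ⇑(c • f) = c • ⇑f := by ext z; simp
  simp only [qCoeff, h1]
  rw [ModularForm.qExpansion_smul one_pos (hΓ N) c f]
  simp

theorem qc_zero (n : ℕ) : qCoeff ⇑(0 : CuspForm (Gamma0 N) k) n = 0 := by
  simp only [qCoeff, FunLike.coe_zero]
  rw [UpperHalfPlane.qExpansion_zero, map_zero]

theorem qc_cusp (f : CuspForm (Gamma0 N) k) : qCoeff ⇑f 0 = 0 :=
  CuspFormClass.qExpansion_coeff_zero f one_pos (hΓ N)

theorem qc_heckeT {p : ℕ} (hp : p.Prime) (hpN : ¬ p ∣ N) (f : CuspForm (Gamma0 N) k) (n : ℕ) :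
    qCoeff ⇑(CuspForm.heckeTLin k hp hpN f) n
      = qCoeff ⇑f (n * p) + if p ∣ n then (p : ℂ) ^ (k - 1) * qCoeff ⇑f (n / p) else 0 := by
  rw [CuspForm.coe_heckeTLin_apply, ModularFormClass.qCoeff_heckeT f (hΓ N) hp.ne_zero n]
  rfl

theorem qc_heckeU [NeZero N] {p : ℕ} (hp : p.Prime) (hpN : p ∣ N) (f : CuspForm (Gamma0 N) k)
    (n : ℕ) :
    qCoeff ⇑(CuspForm.heckeULin k hpN f) n = qCoeff ⇑f (n * p) := by
  rw [CuspForm.coe_heckeULin_apply, ModularFormClass.qCoeff_heckeU f (hΓ N) hp.ne_zero n]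
  rfl

theorem qc_intCast_smul (c : ℤ) (f : CuspForm (Gamma0 N) k) (n : ℕ) :
    qCoeff ⇑(c • f) n = c * qCoeff ⇑f n := by
  rw [← Int.cast_smul_eq_zsmul ℂ c f, qc_smul]

theorem qc_natCast_smul (c : ℕ) (f : CuspForm (Gamma0 N) k) (n : ℕ) :
    qCoeff ⇑(c • f) n = c * qCoeff ⇑f n := by
  rw [← Nat.cast_smul_eq_nsmul ℂ c f, qc_smul]

/-- A cusp form all of whose `q`-coefficients are rational. -/
def IsRat (f : CuspForm (Gamma0 N) k) : Prop := ∀ n : ℕ, ∃ r : ℚ, qCoeff ⇑f n = (r : ℂ)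

theorem IsRat.add {f g : CuspForm (Gamma0 N) k} (hf : IsRat f) (hg : IsRat g) : IsRat (f + g) := by
  intro n
  obtain ⟨a, ha⟩ := hf n
  obtain ⟨b, hb⟩ := hg n
  exact ⟨a + b, by rw [qc_add, ha, hb]; push_cast; ring⟩

theorem IsRat.intCast_smul {f : CuspForm (Gamma0 N) k} (hf : IsRat f) (c : ℤ) : IsRat (c • f) := by
  intro n
  obtain ⟨a, ha⟩ := hf n
  exact ⟨c * a, by rw [qc_intCast_smul, ha]; push_cast; ring⟩

theorem isRat_heckeT {p : ℕ} (hp : p.Prime) (hpN : ¬ p ∣ N) {f : CuspForm (Gamma0 N) 2}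
    (hf : IsRat f) : IsRat (CuspForm.heckeTLin 2 hp hpN f) := by
  intro n
  rw [qc_heckeT]
  obtain ⟨a, ha⟩ := hf (n * p)
  obtain ⟨b, hb⟩ := hf (n / p)
  by_cases h : p ∣ n
  · exact ⟨a + p * b, by rw [if_pos h, ha, hb]; push_cast; norm_num⟩
  · exact ⟨a, by rw [if_neg h, ha]; simp⟩

theorem isRat_heckeU [NeZero N] {p : ℕ} (hp : p.Prime) (hpN : p ∣ N) {f : CuspForm (Gamma0 N) 2}
    (hf : IsRat f) : IsRat (CuspForm.heckeULin 2 hpN f) := by
  intro n
  rw [qc_heckeU hp]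
  exact hf (n * p)

theorem isRat_of_mem_heckeAlgebra [NeZero N]
    (t : Module.End ℂ (CuspForm (Gamma0 N) 2)) (ht : t ∈ CuspForm.heckeAlgebra N 2 ∅) :
    ∀ f : CuspForm (Gamma0 N) 2, IsRat f → IsRat (t f) := by
  unfold CuspForm.heckeAlgebra at ht
  induction ht using Algebra.adjoin_induction with
  | mem x hx =>
    intro f hf
    rcases hx with ⟨ℓ, hℓ, hℓN, -, rfl⟩ | ⟨q, hqN, hq, -, rfl⟩
    · exact isRat_heckeT hℓ hℓN hf
    · exact isRat_heckeU hq hqN hf
  | algebraMap r =>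
    intro f hf
    have : (algebraMap ℤ (Module.End ℂ (CuspForm (Gamma0 N) 2)) r) f = r • f := by
      simp
    rw [this]
    exact hf.intCast_smul r
  | add x y _ _ hx hy =>
    intro f hf
    exact (hx f hf).add (hy f hf)
  | mul x y _ _ hx hy =>
    intro f hf
    exact hx _ (hy f hf)

/-- Evaluation `t ↦ a₁(t f)` on the Hecke algebra. -/
noncomputable def ev [NeZero N] (f : CuspForm (Gamma0 N) 2) :
    ↥(CuspForm.heckeAlgebra N 2 ∅) →ₗ[ℤ] ℂ where
  toFun t := qCoeff ⇑(t.1 f) 1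
  map_add' s t := by
    change qCoeff ⇑((s.1 + t.1) f) 1 = _
    rw [LinearMap.add_apply, qc_add]
  map_smul' c t := by
    change qCoeff ⇑((c • t.1) f) 1 = _
    rw [LinearMap.smul_apply, qc_intCast_smul]
    simp

theorem ev_apply [NeZero N] (f : CuspForm (Gamma0 N) 2) (t : ↥(CuspForm.heckeAlgebra N 2 ∅)) :
    ev f t = qCoeff ⇑(t.1 f) 1 := rfl

/-- Every `q`-coefficient of `t f` of positive index is a value of `ev f`. -/
theorem qc_mem_range_ev [NeZero N] (f : CuspForm (Gamma0 N) 2) :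
    ∀ n : ℕ, 0 < n → ∀ t : ↥(CuspForm.heckeAlgebra N 2 ∅),
      qCoeff ⇑(t.1 f) n ∈ LinearMap.range (ev f) := by
  intro n
  induction n using Nat.strong_induction_on with
  | _ n ih =>
    intro hn t
    rcases Nat.lt_or_ge n 2 with h2 | h2
    · have h1 : n = 1 := by omega
      subst h1
      exact ⟨t, rfl⟩
    · have hp : (n.minFac).Prime := Nat.minFac_prime (by omega)
      set p := n.minFac with hpdef
      have hpn : p ∣ n := Nat.minFac_dvd n
      obtain ⟨m, hm⟩ := hpn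
      have hmpos : 0 < m := by
        rcases Nat.eq_zero_or_pos m with h0 | h0
        · subst h0; omega
        · exact h0
      have hmlt : m < n := by
        rw [hm]
        have := hp.two_le
        nlinarith
      have hnm : n = m * p := by rw [hm, mul_comm]
      by_cases hpN : p ∣ N
      · -- `U_p`
        let u : ↥(CuspForm.heckeAlgebra N 2 ∅) :=
          ⟨CuspForm.heckeULin 2 hpN, CuspForm.heckeULin_mem_heckeAlgebra hp hpN (Set.notMem_empty p)⟩
        have key : qCoeff ⇑((u * t).1 f) m = qCoeff ⇑(t.1 f) n := by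
          change qCoeff ⇑(CuspForm.heckeULin 2 hpN (t.1 f)) m = _
          rw [qc_heckeU hp, hnm]
        rw [← key]
        exact ih m hmlt hmpos (u * t)
      · -- `T_p`
        let u : ↥(CuspForm.heckeAlgebra N 2 ∅) :=
          ⟨CuspForm.heckeTLin 2 hp hpN, CuspForm.heckeTLin_mem_heckeAlgebra hp hpN (Set.notMem_empty p)⟩
        have key : qCoeff ⇑((u * t).1 f) m = qCoeff ⇑(t.1 f) n +
            if p ∣ m then (p : ℂ) ^ ((2 : ℤ) - 1) * qCoeff ⇑(t.1 f) (m / p) else 0 := by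
          change qCoeff ⇑(CuspForm.heckeTLin 2 hp hpN (t.1 f)) m = _
          rw [qc_heckeT hp, hnm]
        have h1 := ih m hmlt hmpos (u * t)
        by_cases hpm : p ∣ m
        · rw [if_pos hpm] at key
          have hmp_pos : 0 < m / p := Nat.div_pos (Nat.le_of_dvd hmpos hpm) hp.pos
          have hmp_lt : m / p < n := lt_of_le_of_lt (Nat.div_le_self m p) hmlt
          have h2 := ih (m / p) hmp_lt hmp_pos t
          have : qCoeff ⇑(t.1 f) n = qCoeff ⇑((u * t).1 f) m - (p : ℤ) • qCoeff ⇑(t.1 f) (m / p) := by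
            rw [key]
            simp
          rw [this]
          exact Submodule.sub_mem _ h1 (Submodule.smul_mem _ _ h2)
        · rw [if_neg hpm, add_zero] at key
          rw [← key]
          exact h1

/-- A finitely generated additive subgroup of `ℂ` consisting of rational numbers has a common
denominator. -/
theorem exists_common_den (L : Submodule ℤ ℂ) (hfg : L.FG)
    (hrat : ∀ x ∈ L, ∃ r : ℚ, x = (r : ℂ)) :
    ∃ M : ℕ, M ≠ 0 ∧ ∀ x ∈ L, ∃ m : ℤ, (M : ℂ) * x = (m : ℂ) := by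
  classical
  obtain ⟨s, hs⟩ := hfg
  have hsL : ∀ x ∈ s, x ∈ L := fun x hx => hs ▸ Submodule.subset_span hx
  choose! r hr using hrat
  refine ⟨∏ x ∈ s, (r x).den, Finset.prod_ne_zero_iff.mpr fun x _ => (r x).den_nz, ?_⟩
  intro x hx
  rw [← hs] at hx
  induction hx using Submodule.span_induction with
  | mem y hy =>
    have hy' : y ∈ s := hy
    obtain ⟨e, he⟩ := Finset.dvd_prod_of_mem (fun x => (r x).den) hy'
    have hyr : y = ((r y : ℚ) : ℂ) := hr y (hsL y hy')
    obtain ⟨q, hq⟩ : ∃ q : ℚ, r y = q := ⟨_, rfl⟩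
    rw [hq] at he hyr
    refine ⟨e * q.num, ?_⟩
    have h1 : ((q : ℚ) : ℂ) = (q.num : ℂ) / (q.den : ℂ) := by
      conv_lhs => rw [← Rat.num_div_den q]
      push_cast; rfl
    have hden : (q.den : ℂ) ≠ 0 := by exact_mod_cast q.den_nz
    rw [he, hyr, h1]
    push_cast
    field_simp
  | zero => exact ⟨0, by simp⟩
  | add a b _ _ ha hb =>
    obtain ⟨m, hm⟩ := ha
    obtain ⟨m', hm'⟩ := hb
    exact ⟨m + m', by rw [mul_add, hm, hm']; push_cast; ring⟩
  | smul c a _ ha =>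
    obtain ⟨m, hm⟩ := ha
    exact ⟨c * m, by rw [zsmul_eq_mul, mul_left_comm, hm]; push_cast; ring⟩

end Denoms

open Denoms in
/-- Bounded denominators: a weight-2 cusp form on `Γ₀(N)` with rational `q`-expansion has an
integer multiple with integral `q`-expansion. -/
theorem exists_nsmul_qCoeff_int (N : ℕ) [NeZero N] (f : CuspForm (CongruenceSubgroup.Gamma0 N) 2)
    (hf : ∀ n : ℕ, ∃ r : ℚ, ModularFormClass.qCoeff f n = (r : ℂ)) :
    ∃ M : ℕ, M ≠ 0 ∧ ∀ n : ℕ, ∃ m : ℤ, ModularFormClass.qCoeff (⇑(M • f)) n = (m : ℂ) := by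
  have hfin : Module.Finite ℤ ↥(CuspForm.heckeAlgebra N 2 ∅) := Fermat.Agent.S22.result N 2 ∅
  have hfg : (LinearMap.range (ev f)).FG := by
    have : Module.Finite ℤ ↥(LinearMap.range (ev f)) := Module.Finite.range (ev f)
    exact Module.Finite.iff_fg.mp this
  have hrat : ∀ x ∈ LinearMap.range (ev f), ∃ r : ℚ, x = (r : ℂ) := by
    rintro x ⟨t, rfl⟩
    exact isRat_of_mem_heckeAlgebra t.1 t.2 f hf 1
  obtain ⟨M, hM0, hM⟩ := exists_common_den _ hfg hrat
  refine ⟨M, hM0, fun n => ?_⟩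
  rw [qc_natCast_smul]
  rcases Nat.eq_zero_or_pos n with h0 | hpos
  · subst h0
    exact ⟨0, by rw [qc_cusp]; simp⟩
  · have := qc_mem_range_ev f n hpos 1
    simpa using hM _ this

/-- A weight-2 cusp form with rational `q`-expansion lies in the complex span of the integral
lattice. -/
theorem mem_span_intLattice_of_rat (N : ℕ) [NeZero N]
    (f : CuspForm (CongruenceSubgroup.Gamma0 N) 2)
    (hf : ∀ n : ℕ, ∃ r : ℚ, ModularFormClass.qCoeff f n = (r : ℂ)) :
    f ∈ Submodule.span ℂ ((CuspForm.intLattice N 2 :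
      Submodule ℤ (CuspForm (CongruenceSubgroup.Gamma0 N) 2)) :
        Set (CuspForm (CongruenceSubgroup.Gamma0 N) 2)) := by
  obtain ⟨M, hM0, hM⟩ := exists_nsmul_qCoeff_int N f hf
  have hmem : M • f ∈ CuspForm.intLattice N 2 := Submodule.subset_span hM
  have hMc : (M : ℂ) ≠ 0 := by exact_mod_cast hM0
  have hfe : f = (M : ℂ)⁻¹ • (M • f) := by
    rw [← Nat.cast_smul_eq_nsmul ℂ M f, smul_smul, inv_mul_cancel₀ hMc, one_smul]
  rw [hfe]
  exact Submodule.smul_mem _ _ (Submodule.subset_span hmem)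

end Fermat.Agent.S23
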