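import Mathlib

set_option autoImplicit false

namespace Fermat.Agent.S23

open MvPolynomial in
/-- A ring automorphism of a subfield `R` of an algebraically closed field `K` extends to `K`. -/
theorem exists_ringEquiv_extending {R K : Type*} [Field R] [Field K] [IsAlgClosed K]
    [Algebra R K] (τ : R ≃+* R) :
    ∃ σ : K ≃+* K, ∀ r : R, σ (algebraMap R K r) = algebraMap R K (τ r) := by
  obtain ⟨ι, x, hx⟩ := exists_isTranscendenceBasis' R K
  have := IsAlgClosed.isAlgClosure_of_transcendence_basis x hx
  let e : Algebra.adjoin R (Set.range x) ≃+* Algebra.adjoin R (Set.range x) :=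
    hx.1.aevalEquiv.symm.toRingEquiv.trans
      ((MvPolynomial.mapEquiv ι τ).trans hx.1.aevalEquiv.toRingEquiv)
  refine ⟨IsAlgClosure.equivOfEquiv K K e, fun r => ?_⟩
  have h1 : algebraMap R K r =
      algebraMap (Algebra.adjoin R (Set.range x)) K (algebraMap R _ r) := rfl
  rw [h1, IsAlgClosure.equivOfEquiv_algebraMap]
  have h2 : e (algebraMap R (Algebra.adjoin R (Set.range x)) r) =
      algebraMap R (Algebra.adjoin R (Set.range x)) (τ r) := by
    simp only [e, RingEquiv.trans_apply, AlgEquiv.coe_ringEquiv]
    have h3 : hx.1.aevalEquiv.symm (algebraMap R (Algebra.adjoin R (Set.range x)) r) = C r := by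
      rw [AlgEquiv.symm_apply_eq]
      simp
    rw [h3]
    simp only [MvPolynomial.mapEquiv_apply, MvPolynomial.map_C]
    exact hx.1.aevalEquiv.commutes (τ r)
  rw [h2]
  rfl

section general

variable {F K : Type*} [Field F] [CharZero F] [Field K] [Algebra F K] [IsAlgClosed K]

/-- Algebraic case. -/
theorem exists_ringEquiv_ne_of_isAlgebraic (z : K) (hz : ∀ q : F, algebraMap F K q ≠ z)
    (halg : IsAlgebraic F z) : ∃ σ : K ≃+* K, σ z ≠ z := by
  have hG : IsGalois F (algebraicClosure F K) := IsAlgClosure.isGalois F (algebraicClosure F K)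
  let z₀ : algebraicClosure F K := ⟨z, mem_algebraicClosure_iff.mpr halg⟩
  have hex : ∃ τ : algebraicClosure F K ≃ₐ[F] algebraicClosure F K, τ z₀ ≠ z₀ := by
    by_contra hcon
    push Not at hcon
    have hbot := (InfiniteGalois.mem_bot_iff_fixed z₀).mpr hcon
    obtain ⟨q, hq⟩ := IntermediateField.mem_bot.mp hbot
    apply hz q
    have := congrArg (Subtype.val) hq
    simpa using this
  obtain ⟨τ, hτ⟩ := hex
  obtain ⟨σ, hσ⟩ := exists_ringEquiv_extending (K := K) τ.toRingEquiv
  refine ⟨σ, fun h => hτ ?_⟩
  have h1 := hσ z₀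
  have h2 : algebraMap (algebraicClosure F K) K z₀ = z := rfl
  rw [h2, h] at h1
  exact Subtype.ext h1.symm

/-- Transcendental case. -/
theorem exists_ringEquiv_ne_of_transcendental (z : K) (htr : Transcendental F z) :
    ∃ σ : K ≃+* K, σ z ≠ z := by
  let φ : RatFunc F ≃+* IntermediateField.adjoin F {z} :=
    (RatFunc.algEquivOfTranscendental z htr).toRingEquiv
  let ρ : RatFunc F ≃+* RatFunc F :=
    IsFractionRing.ringEquivOfRingEquiv (Polynomial.algEquivAevalXAddC (1 : F)).toRingEquiv
  let τ : IntermediateField.adjoin F {z} ≃+* IntermediateField.adjoin F {z} :=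
    φ.symm.trans (ρ.trans φ)
  obtain ⟨σ, hσ⟩ := exists_ringEquiv_extending (K := K) τ
  refine ⟨σ, fun h => ?_⟩
  have h1 := hσ (IntermediateField.AdjoinSimple.gen F z)
  have h2 : algebraMap (IntermediateField.adjoin F {z}) K (IntermediateField.AdjoinSimple.gen F z)
      = z := rfl
  rw [h2, h] at h1
  have h3 : τ (IntermediateField.AdjoinSimple.gen F z) =
      IntermediateField.AdjoinSimple.gen F z + 1 := by
    have hφ : φ (RatFunc.X) = IntermediateField.AdjoinSimple.gen F z := by
      apply Subtype.ext
      simp [φ]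
    have hφs : φ.symm (IntermediateField.AdjoinSimple.gen F z) = RatFunc.X := by
      rw [RingEquiv.symm_apply_eq, hφ]
    have hρ : ρ RatFunc.X = RatFunc.X + 1 := by
      have := IsFractionRing.ringEquivOfRingEquiv_algebraMap (K := RatFunc F) (L := RatFunc F)
        (Polynomial.algEquivAevalXAddC (1 : F)).toRingEquiv Polynomial.X
      simp only [RatFunc.algebraMap_X] at this
      rw [show ρ RatFunc.X = _ from this]
      simp [Polynomial.algEquivAevalXAddC]
    simp only [τ, RingEquiv.trans_apply]
    rw [hφs, hρ, map_add, map_one, hφ]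
  rw [h3] at h1
  have h4 : algebraMap (IntermediateField.adjoin F {z}) K
      (IntermediateField.AdjoinSimple.gen F z + 1) = z + 1 := by
    rw [map_add, map_one]
    rfl
  rw [h4] at h1
  exact absurd h1 (by simp)

theorem exists_ringEquiv_ne_gen (z : K) (hz : ∀ q : F, algebraMap F K q ≠ z) :
    ∃ σ : K ≃+* K, σ z ≠ z := by
  by_cases halg : IsAlgebraic F z
  · exact exists_ringEquiv_ne_of_isAlgebraic z hz halg
  · exact exists_ringEquiv_ne_of_transcendental (F := F) z halg

end general

theorem exists_ringEquiv_ne (z : ℂ) (hz : ∀ q : ℚ, (q : ℂ) ≠ z) : ∃ σ : ℂ ≃+* ℂ, σ z ≠ z := by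
  apply exists_ringEquiv_ne_gen (F := ℚ) z
  intro q
  rw [eq_ratCast]
  exact hz q

/-- Descent: a subspace of `ι → ℂ` (`ι` finite) stable under the coordinatewise action of all
field automorphisms of `ℂ` is spanned by its vectors with rational coordinates. -/
theorem exists_rat_basis {ι : Type*} [Finite ι] (V : Submodule ℂ (ι → ℂ))
    (hV : ∀ σ : ℂ ≃+* ℂ, ∀ v ∈ V, (fun i => σ (v i)) ∈ V) :
    V = Submodule.span ℂ {v | v ∈ V ∧ ∀ i, ∃ q : ℚ, v i = (q : ℂ)} := by
  apply le_antisymm
  · have key : ∀ n : ℕ, ∀ v ∈ V, (Function.support v).ncard ≤ n →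
        v ∈ Submodule.span ℂ {v | v ∈ V ∧ ∀ i, ∃ q : ℚ, v i = (q : ℂ)} := by
      intro n
      induction n using Nat.strong_induction_on with
      | _ n ih =>
        intro v hv hn
        by_cases hv0 : v = 0
        · rw [hv0]
          exact Submodule.zero_mem _
        let S : Set (ι → ℂ) := {u | u ∈ V ∧ u ≠ 0 ∧ Function.support u ⊆ Function.support v}
        have hS : S.Nonempty := ⟨v, hv, hv0, subset_rfl⟩
        obtain ⟨u, huS, humin⟩ :=
          (InvImage.wf (fun u : ι → ℂ => (Function.support u).ncard) Nat.lt_wfRel.wf).has_min S hS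
        obtain ⟨huV, hu0, husupp⟩ := huS
        obtain ⟨i₀, hi₀⟩ : ∃ i, u i ≠ 0 := by
          by_contra hcon
          push Not at hcon
          exact hu0 (funext hcon)
        -- normalised vector
        let u' : ι → ℂ := (u i₀)⁻¹ • u
        have hu'V : u' ∈ V := V.smul_mem _ huV
        have hu'i₀ : u' i₀ = 1 := by
          simp only [u', Pi.smul_apply, smul_eq_mul]
          exact inv_mul_cancel₀ hi₀
        have hu'supp : ∀ i, u i = 0 → u' i = 0 := by
          intro i hi
          simp only [u', Pi.smul_apply, smul_eq_mul, hi, mul_zero]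
        have hfix : ∀ σ : ℂ ≃+* ℂ, ∀ i, σ (u' i) = u' i := by
          intro σ
          by_contra hcon
          let w : ι → ℂ := u' - fun i => σ (u' i)
          have hwV : w ∈ V := V.sub_mem hu'V (hV σ u' hu'V)
          have hw0 : w ≠ 0 := by
            intro hw
            apply hcon
            intro i
            have := congrFun hw i
            simp only [w, Pi.sub_apply, Pi.zero_apply] at this
            exact (sub_eq_zero.mp this).symm
          have hwi₀ : w i₀ = 0 := by
            simp only [w, Pi.sub_apply, hu'i₀, map_one, sub_self]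
          have hwsupp : Function.support w ⊆ Function.support u := by
            intro i hi
            rw [Function.mem_support] at hi ⊢
            intro hui
            apply hi
            simp only [w, Pi.sub_apply, hu'supp i hui, map_zero, sub_self]
          have hwS : w ∈ S := ⟨hwV, hw0, hwsupp.trans husupp⟩
          apply humin w hwS
          change (Function.support w).ncard < (Function.support u).ncard
          apply Set.ncard_lt_ncard _ (Set.toFinite _)
          refine ⟨hwsupp, fun hsub => ?_⟩
          have : i₀ ∈ Function.support w := hsub (Function.mem_support.mpr hi₀)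
          exact (Function.mem_support.mp this) hwi₀
        have hrat : ∀ i, ∃ q : ℚ, u' i = (q : ℂ) := by
          intro i
          by_contra hcon
          push Not at hcon
          obtain ⟨σ, hσ⟩ := exists_ringEquiv_ne (u' i) (fun q h => hcon q h.symm)
          exact hσ (hfix σ i)
        have hu'W : u' ∈ Submodule.span ℂ {v | v ∈ V ∧ ∀ i, ∃ q : ℚ, v i = (q : ℂ)} :=
          Submodule.subset_span ⟨hu'V, hrat⟩
        -- reduce `v`
        let v' : ι → ℂ := v - (v i₀) • u'
        have hv'V : v' ∈ V := V.sub_mem hv (V.smul_mem _ hu'V)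
        have hi₀v : i₀ ∈ Function.support v := husupp (Function.mem_support.mpr hi₀)
        have hv'supp : Function.support v' ⊆ Function.support v := by
          intro i hi
          rw [Function.mem_support] at hi ⊢
          intro hvi
          apply hi
          have hui : u i = 0 := by
            by_contra hne
            exact (Function.mem_support.mp (husupp (Function.mem_support.mpr hne))) hvi
          simp only [v', Pi.sub_apply, Pi.smul_apply, smul_eq_mul, hvi, hu'supp i hui, mul_zero,
            sub_self]
        have hv'i₀ : v' i₀ = 0 := by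
          simp only [v', Pi.sub_apply, Pi.smul_apply, smul_eq_mul, hu'i₀, mul_one, sub_self]
        have hlt : (Function.support v').ncard < (Function.support v).ncard := by
          apply Set.ncard_lt_ncard _ (Set.toFinite _)
          refine ⟨hv'supp, fun hsub => ?_⟩
          exact (Function.mem_support.mp (hsub hi₀v)) hv'i₀
        have hv'W := ih _ (lt_of_lt_of_le hlt hn) v' hv'V le_rfl
        have hv : v = v' + (v i₀) • u' := by
          simp only [v', sub_add_cancel]
        rw [hv]
        exact Submodule.add_mem _ hv'W (Submodule.smul_mem _ _ hu'W)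
    intro v hv
    exact key _ v hv le_rfl
  · rw [Submodule.span_le]
    intro v hv
    exact hv.1

/-- Packaged descent for a space `M` with "coefficient" functionals `c n` (for instance
`q`-expansion coefficients): if finitely many coefficients determine an element and the set of
coefficient sequences is stable under every field automorphism of `ℂ`, then `M` is spanned by
the elements all of whose coefficients are rational. -/
theorem span_rat_of_aut_stable {M : Type*} [AddCommGroup M] [Module ℂ M] (c : ℕ → M →ₗ[ℂ] ℂ)
    (B : ℕ) (hinj : ∀ f : M, (∀ n ≤ B, c n f = 0) → f = 0)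
    (hσ : ∀ σ : ℂ ≃+* ℂ, ∀ f : M, ∃ g : M, ∀ n, c n g = σ (c n f)) :
    (⊤ : Submodule ℂ M) = Submodule.span ℂ {f : M | ∀ n, ∃ q : ℚ, c n f = (q : ℂ)} := by
  let T : M →ₗ[ℂ] (Fin (B + 1) → ℂ) := LinearMap.pi fun i => c i
  have hT : ∀ f i, T f i = c i f := fun f i => rfl
  have hTinj : Function.Injective T := by
    rw [← LinearMap.ker_eq_bot, LinearMap.ker_eq_bot']
    intro f hf
    apply hinj
    intro n hn
    have := congrFun hf ⟨n, Nat.lt_succ_of_le hn⟩
    exact this
  have hstab : ∀ σ : ℂ ≃+* ℂ, ∀ v ∈ LinearMap.range T, (fun i => σ (v i)) ∈ LinearMap.range T := by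
    rintro σ _ ⟨f, rfl⟩
    obtain ⟨g, hg⟩ := hσ σ f
    refine ⟨g, ?_⟩
    funext i
    rw [hT, hg, hT]
  have hV := exists_rat_basis (LinearMap.range T) hstab
  have hgen : {v | v ∈ LinearMap.range T ∧ ∀ i, ∃ q : ℚ, v i = (q : ℂ)} ⊆
      T '' {f : M | ∀ n, ∃ q : ℚ, c n f = (q : ℂ)} := by
    rintro _ ⟨⟨f, rfl⟩, hrat⟩
    refine ⟨f, ?_, rfl⟩
    intro n
    by_contra hcon
    push Not at hcon
    obtain ⟨σ, hσ'⟩ := exists_ringEquiv_ne (c n f) (fun q h => hcon q h.symm)
    obtain ⟨g, hg⟩ := hσ σ f
    have hgf : g = f := by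
      apply hTinj
      funext i
      rw [hT, hg, hT]
      obtain ⟨q, hq⟩ := hrat i
      rw [hT] at hq
      rw [hq, map_ratCast]
    apply hσ'
    rw [← hg n, hgf]
  apply le_antisymm
  · intro f _
    have hf : T f ∈ LinearMap.range T := ⟨f, rfl⟩
    rw [hV] at hf
    have hf' := Submodule.span_mono hgen hf
    rw [← Submodule.map_span] at hf'
    obtain ⟨f', hf'mem, hf'eq⟩ := hf'
    rw [← hTinj hf'eq]
    exact hf'mem
  · exact le_top

end Fermat.Agent.S23
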