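import Mathlib
import Fermat.Prelude.Def_CuspForm_IntegralStructure

/-!
# S23 (integral structure on `S₂(Γ₀(N))`): basic definitions

Strategy: every cusp form on `Γ₀(N)` has, for each ring endomorphism `σ` of `ℂ`, a
"conjugate" cusp form whose `q`-expansion is obtained by applying `σ` to the coefficients.
The predicates below are stated for plain functions `ℍ → ℂ` so that sums and products of forms
of varying weights can be manipulated without dependent-type casts.
-/

set_option autoImplicit false

open UpperHalfPlane hiding I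
open Complex Filter Function
open scoped Manifold MatrixGroups ModularForm Topology

namespace Fermat.Agent.S23

/-- `F` is the underlying function of a modular form of weight `k` on `Γ₀(N)`. -/
def IsMF (N : ℕ) (k : ℤ) (F : ℍ → ℂ) : Prop :=
  ∃ f : ModularForm (CongruenceSubgroup.Gamma0 N) k, ⇑f = F

/-- `F` is the underlying function of a modular form of weight `k` and level one. -/
def IsMF1 (k : ℤ) (F : ℍ → ℂ) : Prop :=
  ∃ f : ModularForm 𝒮ℒ k, ⇑f = F

/-- `F'` is a `σ`-conjugate of `F`: both are modular forms of weight `k` on `Γ₀(N)` and the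
`q`-expansion of `F'` is the coefficientwise image under `σ` of that of `F`. -/
def ConjPair (N : ℕ) (σ : ℂ →+* ℂ) (k : ℤ) (F F' : ℍ → ℂ) : Prop :=
  IsMF N k F ∧ IsMF N k F' ∧ qExpansion 1 F' = (qExpansion 1 F).map σ

/-- The index set of the conjugates of a form on `Γ₀(N)` under `SL(2, ℤ)`:
the coset space `SL(2, ℤ) / Γ₀(N)`, as in Mathlib's `SlashInvariantForm.quotientFunc`. -/
abbrev Q (N : ℕ) : Type :=
  ↥𝒮ℒ ⧸ (CongruenceSubgroup.Gamma0 N : Subgroup (GL (Fin 2) ℝ)).subgroupOf 𝒮ℒ

noncomputable instance instFintypeQ (N : ℕ) [NeZero N] : Fintype (Q N) := Fintype.ofFinite _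

noncomputable instance instDecidableEqQ (N : ℕ) : DecidableEq (Q N) := Classical.decEq _

/-- The base point of `Q N`: the trivial coset. -/
def q0 (N : ℕ) : Q N := QuotientGroup.mk 1

/-- The conjugate of a function `F` (of weight `k`) indexed by a coset `q`, computed with the
representative `q.out`.  For `F` invariant under `Γ₀(N)` this is Mathlib's `quotientFunc`. -/
noncomputable def cj (N : ℕ) (k : ℤ) (F : ℍ → ℂ) (q : Q N) : ℍ → ℂ :=
  F ∣[k] ((Quotient.out q : ↥𝒮ℒ) : GL (Fin 2) ℝ)⁻¹

/-- The level-raised discriminant `τ ↦ Δ(N τ)`, written as a weight-`12` slash of `Δ` by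
`diag(N, 1)` (which equals `N ^ 11 * Δ (N τ)`), rescaled. -/
noncomputable def hN (N : ℕ) [NeZero N] : ℍ → ℂ :=
  fun τ => ModularForm.discriminant
    (⟨(N : ℂ) * τ, by
      have h1 : (0 : ℝ) < N := Nat.cast_pos.mpr (NeZero.pos N)
      have h2 : 0 < (τ : ℂ).im := τ.im_pos
      simpa using mul_pos h1 h2⟩ : ℍ)

end Fermat.Agent.S23
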