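-- S23 helper (Goal C): a weight-2 cusp form on Γ₀(N) with rational q-expansion has an
-- integral multiple.  Uses S22 (the full Hecke algebra is a finite ℤ-module) and the
-- q-coefficient formulas for the operators T_p, U_p.
import Fermat.Agent.S22
import Fermat.Agent.S49.Forms
import Fermat.Prelude.Def_CuspForm_IntegralStructure

set_option autoImplicit false

namespace Fermat.Agent.S23

open ModularFormClass CongruenceSubgroup UpperHalfPlane Fermat.Agent.S49

variable {N : ℕ} {k : ℤ}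

/-- Forms all of whose q-coefficients are rational. -/
def IsRat (f : CuspForm (Gamma0 N) k) : Prop :=
  ∀ n : ℕ, ∃ r : ℚ, qCoeff ⇑f n = (r : ℂ)

theorem isRat_zero : IsRat (0 : CuspForm (Gamma0 N) k) := fun n => ⟨0, by rw [qc_zero]; simp⟩

theorem IsRat.add {f g : CuspForm (Gamma0 N) k} (hf : IsRat f) (hg : IsRat g) : IsRat (f + g) := by
  intro n
  obtain ⟨a, ha⟩ := hf n
  obtain ⟨b, hb⟩ := hg n
  exact ⟨a + b, by rw [qc_add, ha, hb]; push_cast; ring⟩

theorem IsRat.zsmul {f : CuspForm (Gamma0 N) k} (hf : IsRat f) (z : ℤ) : IsRat (z • f) := by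
  intro n
  obtain ⟨a, ha⟩ := hf n
  refine ⟨z * a, ?_⟩
  have h : z • f = (z : ℂ) • f := by
    rw [Int.cast_smul_eq_zsmul]
  rw [h, qc_smul, ha]; push_cast; ring

theorem IsRat.heckeT (hk : 1 ≤ k) {f : CuspForm (Gamma0 N) k} (hf : IsRat f) {p : ℕ}
    (hp : p.Prime) (hpN : ¬ p ∣ N) : IsRat (CuspForm.heckeTLin k hp hpN f) := by
  intro n
  obtain ⟨a, ha⟩ := hf (n * p)
  obtain ⟨b, hb⟩ := hf (n / p)
  obtain ⟨m, rfl⟩ : ∃ m : ℕ, k = (m : ℤ) + 1 := ⟨(k - 1).toNat, by omega⟩
  rw [qc_heckeT, ha, hb]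
  by_cases h : p ∣ n
  · refine ⟨a + (p : ℚ) ^ m * b, ?_⟩
    rw [if_pos h]
    have : ((m : ℤ) + 1 - 1) = (m : ℤ) := by ring
    rw [this, zpow_natCast]
    push_cast; ring
  · exact ⟨a, by rw [if_neg h]; simp⟩

theorem IsRat.heckeU [NeZero N] {f : CuspForm (Gamma0 N) k} (hf : IsRat f) {p : ℕ}
    (hp : p.Prime) (hpN : p ∣ N) : IsRat (CuspForm.heckeULin k hpN f) := by
  intro n
  obtain ⟨a, ha⟩ := hf (n * p)
  exact ⟨a, by rw [qc_heckeU hp, ha]⟩

/-- Hecke operators preserve rationality of q-expansions. -/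
theorem IsRat.hecke [NeZero N] (hk : 1 ≤ k) {S : Set ℕ}
    {t : Module.End ℂ (CuspForm (Gamma0 N) k)} (ht : t ∈ CuspForm.heckeAlgebra N k S) :
    ∀ f : CuspForm (Gamma0 N) k, IsRat f → IsRat (t f) := by
  induction ht using Algebra.adjoin_induction with
  | mem x hx =>
    intro f hf
    rcases hx with ⟨ℓ, hℓ, hℓN, -, rfl⟩ | ⟨q, hqN, hq, -, rfl⟩
    · exact hf.heckeT hk hℓ hℓN
    · exact hf.heckeU hq hqN
  | algebraMap r =>
    intro f hf
    rw [Algebra.algebraMap_eq_smul_one, LinearMap.smul_apply, Module.End.one_apply]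
    exact hf.zsmul r
  | add x y _ _ hx hy =>
    intro f hf
    rw [LinearMap.add_apply]
    exact (hx f hf).add (hy f hf)
  | mul x y _ _ hx hy =>
    intro f hf
    rw [Module.End.mul_apply]
    exact hx _ (hy f hf)

/-- A finitely generated additive subgroup of forms: the first coefficients have a common
denominator. -/
theorem exists_common_denominator [NeZero N] (f : CuspForm (Gamma0 N) 2) (hf : IsRat f) :
    ∃ D : ℕ, D ≠ 0 ∧ ∀ t ∈ CuspForm.heckeAlgebra N 2 (∅ : Set ℕ),
      ∃ z : ℤ, (D : ℂ) * qCoeff ⇑(t f) 1 = (z : ℂ) := by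
  classical
  have : Module.Finite ℤ (CuspForm.heckeAlgebra N 2 (∅ : Set ℕ)) :=
    Fermat.Agent.S22.result N 2 ∅
  obtain ⟨s, hs⟩ := (Module.finite_def (R := ℤ)
    (M := CuspForm.heckeAlgebra N 2 (∅ : Set ℕ))).1 inferInstance
  -- rational first coefficients of the generators
  have hr : ∀ t : CuspForm.heckeAlgebra N 2 (∅ : Set ℕ),
      ∃ r : ℚ, qCoeff ⇑((t : Module.End ℂ (CuspForm (Gamma0 N) 2)) f) 1 = (r : ℂ) :=
    fun t => (IsRat.hecke (by norm_num) t.2 f hf) 1
  choose r hr using hr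
  refine ⟨∏ t ∈ s, (r t).den, ?_, ?_⟩
  · exact Finset.prod_ne_zero_iff.mpr fun t _ => (r t).den_ne_zero
  · intro t ht
    have hmem : (⟨t, ht⟩ : CuspForm.heckeAlgebra N 2 (∅ : Set ℕ)) ∈
        Submodule.span ℤ (s : Set (CuspForm.heckeAlgebra N 2 (∅ : Set ℕ))) := by
      rw [hs]; trivial
    have key : ∀ u ∈ Submodule.span ℤ (s : Set (CuspForm.heckeAlgebra N 2 (∅ : Set ℕ))),
        ∃ z : ℤ, ((∏ t ∈ s, (r t).den : ℕ) : ℂ) *
          qCoeff ⇑((u : Module.End ℂ (CuspForm (Gamma0 N) 2)) f) 1 = (z : ℂ) := by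
      intro u hu
      induction hu using Submodule.span_induction with
      | mem x hx =>
        have hx' : x ∈ s := hx
        refine ⟨(∏ t ∈ s.erase x, ((r t).den : ℤ)) * (r x).num, ?_⟩
        rw [hr x, ← Finset.mul_prod_erase s _ hx']
        have hden : ((r x).den : ℂ) ≠ 0 := by exact_mod_cast (r x).den_ne_zero
        have hq : ((r x : ℚ) : ℂ) = ((r x).num : ℂ) / ((r x).den : ℂ) := by
          conv_lhs => rw [← Rat.num_div_den (r x)]
          push_cast; rfl
        rw [hq]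
        push_cast
        field_simp
      | zero =>
        refine ⟨0, ?_⟩
        have h0 : ((0 : CuspForm.heckeAlgebra N 2 (∅ : Set ℕ)) :
            Module.End ℂ (CuspForm (Gamma0 N) 2)) f = 0 := by simp
        rw [h0, qc_zero]; simp
      | add x y _ _ hx hy =>
        obtain ⟨a, ha⟩ := hx
        obtain ⟨b, hb⟩ := hy
        refine ⟨a + b, ?_⟩
        have : ((x + y : CuspForm.heckeAlgebra N 2 (∅ : Set ℕ)) :
            Module.End ℂ (CuspForm (Gamma0 N) 2)) f
            = (x : Module.End ℂ (CuspForm (Gamma0 N) 2)) f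
              + (y : Module.End ℂ (CuspForm (Gamma0 N) 2)) f := by
          simp
        rw [this, qc_add, mul_add, ha, hb]; push_cast; ring
      | smul c x _ hx =>
        obtain ⟨a, ha⟩ := hx
        refine ⟨c * a, ?_⟩
        have : ((c • x : CuspForm.heckeAlgebra N 2 (∅ : Set ℕ)) :
            Module.End ℂ (CuspForm (Gamma0 N) 2)) f
            = (c : ℂ) • ((x : Module.End ℂ (CuspForm (Gamma0 N) 2)) f) := by
          rw [Int.cast_smul_eq_zsmul]
          simp
        rw [this, qc_smul]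
        have e : ((∏ t ∈ s, (r t).den : ℕ) : ℂ) *
            ((c : ℂ) * qCoeff ⇑((x : Module.End ℂ (CuspForm (Gamma0 N) 2)) f) 1)
            = (c : ℂ) * (((∏ t ∈ s, (r t).den : ℕ) : ℂ) *
              qCoeff ⇑((x : Module.End ℂ (CuspForm (Gamma0 N) 2)) f) 1) := by ring
        rw [e, ha]; push_cast; ring
    exact key ⟨t, ht⟩ hmem

/-- All coefficients of all Hecke translates have the common denominator `D`. -/
theorem int_coeff_of_common_denominator [NeZero N] (f : CuspForm (Gamma0 N) 2) (D : ℕ)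
    (hD : ∀ t ∈ CuspForm.heckeAlgebra N 2 (∅ : Set ℕ),
      ∃ z : ℤ, (D : ℂ) * qCoeff ⇑(t f) 1 = (z : ℂ)) :
    ∀ m : ℕ, ∀ t ∈ CuspForm.heckeAlgebra N 2 (∅ : Set ℕ),
      ∃ z : ℤ, (D : ℂ) * qCoeff ⇑(t f) m = (z : ℂ) := by
  intro m
  induction m using Nat.strong_induction_on with
  | _ m ih =>
    intro t ht
    rcases Nat.lt_or_ge m 2 with hm | hm
    · interval_cases m
      · exact ⟨0, by rw [qc_cusp]; simp⟩
      · exact hD t ht
    · -- m ≥ 2: split off the smallest prime factor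
      have hp : (m.minFac).Prime := Nat.minFac_prime (by omega)
      set p := m.minFac with hpdef
      obtain ⟨m', hm'⟩ : p ∣ m := Nat.minFac_dvd m
      have hm'pos : 0 < m' := by
        rcases Nat.eq_zero_or_pos m' with h | h
        · subst h; omega
        · exact h
      have hm'lt : m' < m := by
        rw [hm']
        have := hp.two_le
        nlinarith
      have hmm : m' * p = m := by rw [hm']; ring
      by_cases hpN : p ∣ N
      · -- U_p
        have hU : CuspForm.heckeULin 2 hpN ∈ CuspForm.heckeAlgebra N 2 (∅ : Set ℕ) :=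
          CuspForm.heckeULin_mem_heckeAlgebra hp hpN (by simp)
        obtain ⟨z, hz⟩ := ih m' hm'lt (CuspForm.heckeULin 2 hpN * t) (mul_mem hU ht)
        refine ⟨z, ?_⟩
        rw [Module.End.mul_apply, qc_heckeU hp, hmm] at hz
        exact hz
      · -- T_p
        have hT : CuspForm.heckeTLin 2 hp hpN ∈ CuspForm.heckeAlgebra N 2 (∅ : Set ℕ) :=
          CuspForm.heckeTLin_mem_heckeAlgebra hp hpN (by simp)
        obtain ⟨z, hz⟩ := ih m' hm'lt (CuspForm.heckeTLin 2 hp hpN * t) (mul_mem hT ht)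
        rw [Module.End.mul_apply, qc_heckeT, hmm] at hz
        by_cases hd : p ∣ m'
        · rw [if_pos hd] at hz
          have hlt : m' / p < m := lt_of_le_of_lt (Nat.div_le_self _ _) hm'lt
          obtain ⟨w, hw⟩ := ih (m' / p) hlt t ht
          refine ⟨z - p * w, ?_⟩
          have h1 : ((p : ℂ) ^ ((2 : ℤ) - 1)) = (p : ℂ) := by norm_num
          rw [h1] at hz
          push_cast
          rw [← hz, ← hw]; ring
        · rw [if_neg hd, add_zero] at hz
          exact ⟨z, hz⟩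

/-- **Goal C.** A weight-2 cusp form on `Γ₀(N)` with rational q-expansion has a nonzero integer
multiple in the integral lattice. -/
theorem exists_nsmul_mem_intLattice (N : ℕ) [NeZero N] (f : CuspForm (Gamma0 N) 2)
    (hf : ∀ n : ℕ, ∃ r : ℚ, qCoeff ⇑f n = (r : ℂ)) :
    ∃ D : ℕ, D ≠ 0 ∧ (D : ℂ) • f ∈ CuspForm.intLattice N 2 := by
  obtain ⟨D, hD0, hD⟩ := exists_common_denominator f hf
  refine ⟨D, hD0, Submodule.subset_span ?_⟩
  intro n
  obtain ⟨z, hz⟩ := int_coeff_of_common_denominator f D hD n 1 (one_mem _)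
  exact ⟨z, by rw [qc_smul]; simpa using hz⟩

/-- Glue: if the forms with rational q-expansion span, then `S₂(Γ₀(N))` has an integral
structure. -/
theorem hasIntegralStructure_of_rat_span (N : ℕ) [NeZero N]
    (h : Submodule.span ℂ {f : CuspForm (Gamma0 N) 2 |
      ∀ n : ℕ, ∃ r : ℚ, qCoeff ⇑f n = (r : ℂ)} = ⊤) :
    CuspForm.HasIntegralStructure N 2 := by
  unfold CuspForm.HasIntegralStructure
  rw [eq_top_iff, ← h]
  refine Submodule.span_le.mpr ?_
  intro f hf
  obtain ⟨D, hD0, hD⟩ := exists_nsmul_mem_intLattice N f hf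
  have hDc : (D : ℂ) ≠ 0 := by exact_mod_cast hD0
  have : f = (D : ℂ)⁻¹ • ((D : ℂ) • f) := by
    rw [smul_smul, inv_mul_cancel₀ hDc, one_smul]
  rw [this]
  exact Submodule.smul_mem _ _ (Submodule.subset_span hD)

end Fermat.Agent.S23
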